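import Fermat.Agent.TateE.Tower
import Fermat.Agent.ECTorsion.Galois
import Fermat.Agent.FFG.RatLocal
import Fermat.Prelude.Def_GaloisRep_Adic
import Fermat.Prelude.Def_FLTPrelim_GaloisRep
import Mathlib.NumberTheory.Padics.PadicIntegers

/-!
The `p`-adic Tate module of an integral Weierstrass curve as a `GaloisRepAdic ℤ_[p]`.
-/

set_option autoImplicit false

noncomputable section

namespace Fermat.Agent.TateE

open WeierstrassCurve
open scoped WeierstrassCurve.Affine TensorProduct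

/-- The points over `ℚ̄` of an integral Weierstrass curve. -/
abbrev EPoint (W : WeierstrassCurve ℤ) : Type :=
  ((W.map (Int.castRingHom ℚ))⁄(AlgebraicClosure ℚ)).Point

/-- The `n`-torsion of `EPoint W`. -/
abbrev ETors (W : WeierstrassCurve ℤ) (n : ℕ) : Type :=
  Submodule.torsionBy ℤ ((W.map (Int.castRingHom ℚ))⁄(AlgebraicClosure ℚ)).Point n

variable {W : WeierstrassCurve ℤ} {p : ℕ} [Fact p.Prime]

theorem card_ETors_pow (hΔ : W.Δ ≠ 0) (n : ℕ) :
    Nat.card (Submodule.torsionBy ℤ (EPoint W) (p ^ n : ℕ)) = (p ^ n) ^ 2 :=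
  ECTorsion.natCard_torsionBy_qbar_of_int W hΔ (pow_ne_zero _ (Fact.out : p.Prime).ne_zero)

/-- A chosen basis of the Tate module. -/
def tateBasis (hΔ : W.Δ ≠ 0) : Module.Basis (Fin 2) ℤ_[p] (Tate p (EPoint W)) :=
  (nonempty_basis (card_ETors_pow hΔ)).some

theorem maximalIdeal_pow_eq (n : ℕ) :
    IsLocalRing.maximalIdeal ℤ_[p] ^ n = Ideal.span {(p : ℤ_[p]) ^ n} := by
  rw [PadicInt.maximalIdeal_eq_span_p, Ideal.span_singleton_pow]

variable (W p) in
/-- The `p`-adic Tate module of `W`. -/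
def tateRep (hΔ : W.Δ ≠ 0) : GaloisRepAdic ℤ_[p] where
  V := Tate p (EPoint W)
  instFree := Module.Free.of_basis (tateBasis hΔ)
  instFinite := Module.Finite.of_basis (tateBasis hΔ)
  finrank_eq := by
    rw [Module.finrank_eq_card_basis (tateBasis hΔ), Fintype.card_fin]
  ρ := Tate.rep
  isAdicContinuous n := by
    obtain ⟨L, hL, h⟩ := ECTorsion.exists_finite_level (S := ℚ) (K := AlgebraicClosure ℚ)
      (W := W.map (Int.castRingHom ℚ))
      (ECTorsion.algebraMap_qbar_Δ_ne_zero _ (ECTorsion.map_castRingHom_Δ_ne_zero W hΔ))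
      (n := p ^ n) (Nat.cast_ne_zero.mpr (pow_ne_zero _ (Fact.out : p.Prime).ne_zero))
    refine ⟨L, hL, fun σ hσ v => ?_⟩
    rw [maximalIdeal_pow_eq]
    refine Tate.mem_of_apply_eq_zero n ?_
    have := h σ hσ (Tate.proj n v)
    rw [AddSubgroup.coe_sub, Pi.sub_apply, Tate.rep_apply, sub_eq_zero]
    exact congrArg Subtype.val this

variable (hΔ : W.Δ ≠ 0)

theorem tateProj_rep (σ : AlgebraicClosure ℚ ≃ₐ[ℚ] AlgebraicClosure ℚ)
    (f : Tate p (EPoint W)) (n : ℕ) :
    Tate.proj n (Tate.rep σ f) = σ • (Tate.proj n f : ETors W (p ^ n)) :=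
  rfl

include hΔ in
theorem free_tate : Module.Free ℤ_[p] (Tate p (EPoint W)) := Module.Free.of_basis (tateBasis hΔ)

include hΔ in
theorem finite_tate : Module.Finite ℤ_[p] (Tate p (EPoint W)) :=
  Module.Finite.of_basis (tateBasis hΔ)

include hΔ in
theorem finrank_tate : Module.finrank ℤ_[p] (Tate p (EPoint W)) = 2 := by
  rw [Module.finrank_eq_card_basis (tateBasis hΔ), Fintype.card_fin]

/-- The `n`-th level of the Tate module is `E[p ^ n]`. -/
def levelEquiv (n : ℕ) :
    ((tateRep W p hΔ).V ⧸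
        (Ideal.span {(p : ℤ_[p]) ^ n} • (⊤ : Submodule ℤ_[p] (tateRep W p hΔ).V))) ≃+
      ETors W (p ^ n) :=
  (QuotientAddGroup.quotientAddEquivOfEq (show _ = (Tate.proj (p := p) (A := EPoint W) n).ker by
      ext f
      exact ⟨fun h => AddMonoidHom.mem_ker.mpr (Subtype.ext (Tate.apply_eq_zero_of_mem n h)),
        fun h => Tate.mem_of_apply_eq_zero n (congrArg Subtype.val (AddMonoidHom.mem_ker.mp h))⟩)).trans
    (QuotientAddGroup.quotientKerEquivOfSurjective _ (Tate.proj_surjective (card_ETors_pow hΔ) n))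

theorem levelEquiv_mk (n : ℕ) (f : Tate p (EPoint W)) :
    levelEquiv hΔ n (Submodule.Quotient.mk f) = Tate.proj n f := rfl

theorem levelEquiv_levelAction (n : ℕ) (σ : AlgebraicClosure ℚ ≃ₐ[ℚ] AlgebraicClosure ℚ)
    (x : (tateRep W p hΔ).V ⧸
      (Ideal.span {(p : ℤ_[p]) ^ n} • (⊤ : Submodule ℤ_[p] (tateRep W p hΔ).V))) :
    levelEquiv hΔ n ((tateRep W p hΔ).levelAction (Ideal.span {(p : ℤ_[p]) ^ n}) σ x) =
      σ • levelEquiv hΔ n x := by
  obtain ⟨f, rfl⟩ := Submodule.Quotient.mk_surjective _ x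
  rfl

/-- If every `E[p ^ n]` has a finite flat model over `ℤ_(p)`, the Tate module is flat at `p`. -/
theorem tateRep_isFlatAt
    (h : ∀ n, FFG.HasFlatModelAt p (M := ETors W (p ^ n)) fun σ P => σ • P) :
    (tateRep W p hΔ).IsFlatAt p := by
  rw [FFG.isFlatAt_iff]
  refine ⟨Finite.of_equiv _ PadicInt.residueField.symm.toEquiv, fun I hI => ?_⟩
  rcases eq_or_ne I ⊥ with rfl | hI0
  · exfalso
    have : Finite ℤ_[p] := Finite.of_equiv _ (RingEquiv.quotientBot ℤ_[p]).toEquiv
    exact not_finite ℤ_[p]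
  obtain ⟨n, rfl⟩ := PadicInt.ideal_eq_span_pow_p hI0
  exact (h n).of_equiv (levelEquiv hΔ n) fun σ x => levelEquiv_levelAction hΔ n σ x

section BaseChange

variable {A B : Type} [CommRing A] [IsLocalRing A] [CommRing B] [IsLocalRing B]

/-- Flatness at `p` is preserved by every local base change to a ring with finite residue field. -/
theorem isFlatAt_baseChangeAlong_of_finite (φ : A →+* B) (hφ : IsLocalHom φ)
    (hres : Finite (IsLocalRing.ResidueField B)) {ρ : GaloisRepAdic A} {q : ℕ}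
    (h : ρ.IsFlatAt q) : (ρ.baseChangeAlong φ hφ).IsFlatAt q := by
  rw [FFG.isFlatAt_iff] at h ⊢
  refine ⟨hres, fun I hI => ?_⟩
  let _ : Algebra A B := φ.toAlgebra
  let J : Ideal A := I.comap φ
  have : Finite (A ⧸ J) := Finite.of_injective (Ideal.quotientMap I φ le_rfl)
    Ideal.quotientMap_injective
  let k := Nat.card (B ⧸ I)
  let e : Fin k ≃ B ⧸ I := (Finite.equivFin (B ⧸ I)).symm
  choose c hc using fun i => Ideal.Quotient.mk_surjective (e i)
  let g : (i : Fin k) → (ρ.V →ₗ[A] (B ⊗[A] ρ.V) ⧸ (I • (⊤ : Submodule B (B ⊗[A] ρ.V)))) :=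
    fun i => ((Submodule.mkQ (I • (⊤ : Submodule B (B ⊗[A] ρ.V)))).restrictScalars A).comp
      (TensorProduct.mk A B ρ.V (c i))
  have hg : ∀ i, J • (⊤ : Submodule A ρ.V) ≤ LinearMap.ker (g i) := by
    intro i
    rw [Submodule.smul_le]
    intro a ha v _
    change Submodule.Quotient.mk (c i ⊗ₜ[A] (a • v)) = 0
    rw [Submodule.Quotient.mk_eq_zero, TensorProduct.tmul_smul,
      ← algebraMap_smul B a (c i ⊗ₜ[A] v)]
    exact Submodule.smul_mem_smul (Ideal.mem_comap.mp ha) Submodule.mem_top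
  let π : (Fin k → ρ.V ⧸ (J • (⊤ : Submodule A ρ.V))) →+
      (B ⊗[A] ρ.V) ⧸ (I • (⊤ : Submodule B (B ⊗[A] ρ.V))) :=
    ∑ i, ((J • (⊤ : Submodule A ρ.V)).liftQ (g i) (hg i)).toAddMonoidHom.comp
      (Pi.evalAddMonoidHom _ i)
  have hπ : ∀ v : Fin k → ρ.V, π (fun i => Submodule.Quotient.mk (v i)) =
      ∑ i, Submodule.Quotient.mk (c i ⊗ₜ[A] v i) := fun v => by
    rw [AddMonoidHom.finsetSum_apply]
    rfl
  have hsurj : Function.Surjective π := by
    rw [← AddMonoidHom.range_eq_top, eq_top_iff]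
    intro q _
    obtain ⟨x, rfl⟩ := Submodule.Quotient.mk_surjective _ q
    clear ‹Submodule.Quotient.mk x ∈ (⊤ : AddSubgroup _)›
    induction x using TensorProduct.induction_on with
    | zero => exact zero_mem _
    | add x y hx hy => rw [Submodule.Quotient.mk_add]; exact add_mem hx hy
    | tmul b v =>
      let i := e.symm (Ideal.Quotient.mk I b)
      refine ⟨fun j => Submodule.Quotient.mk (if j = i then v else 0), ?_⟩
      rw [hπ, Finset.sum_eq_single i (fun j _ hj => by rw [if_neg hj, TensorProduct.tmul_zero,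
        Submodule.Quotient.mk_zero]) (fun hi => absurd (Finset.mem_univ i) hi), if_pos rfl,
        Submodule.Quotient.eq, ← TensorProduct.sub_tmul,
        show (c i - b) ⊗ₜ[A] v = (c i - b) • ((1 : B) ⊗ₜ[A] v) by
          rw [TensorProduct.smul_tmul', smul_eq_mul, mul_one]]
      refine Submodule.smul_mem_smul ?_ Submodule.mem_top
      rw [← Ideal.Quotient.eq, hc]
      exact e.apply_symm_apply _
  refine ((h.2 J inferInstance).finPow k).of_surjective π hsurj fun σ x => ?_
  choose v hv using fun i => Submodule.Quotient.mk_surjective _ (x i)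
  obtain rfl : x = fun i => Submodule.Quotient.mk (v i) := funext fun i => (hv i).symm
  change π (fun i => Submodule.Quotient.mk (ρ.ρ σ (v i))) = _
  rw [hπ]
  refine Eq.trans ?_ (congrArg ((ρ.baseChangeAlong φ hφ).levelAction I σ) (hπ v)).symm
  refine Eq.trans ?_ (map_sum _ _ _).symm
  refine Finset.sum_congr rfl fun i _ => ?_
  change Submodule.Quotient.mk (c i ⊗ₜ[A] ρ.ρ σ (v i)) =
    Submodule.Quotient.mk ((ρ.ρ σ).baseChange B (c i ⊗ₜ[A] v i))
  rw [LinearMap.baseChange_tmul]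

end BaseChange

end Fermat.Agent.TateE
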