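import Fermat.Agent.TateE.DetRep
import Fermat.Agent.ECLocal.Main
import Fermat.Agent.ECFormal.Main

/-!
Local properties of the Tate module: unramified, unipotent inertia, flat.
-/

set_option autoImplicit false

noncomputable section

namespace Fermat.Agent.TateE

open WeierstrassCurve Polynomial
open scoped WeierstrassCurve.Affine

local notation "Qb" => AlgebraicClosure ℚ
local notation "Γℚ" => (AlgebraicClosure ℚ ≃ₐ[ℚ] AlgebraicClosure ℚ)

variable {W : WeierstrassCurve ℤ} {p : ℕ} [Fact p.Prime]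

theorem not_dvd_pow_of_ne {q : ℕ} (hq : q.Prime) (hqp : q ≠ p) (n : ℕ) : ¬ q ∣ p ^ n := fun hd =>
  hqp ((Nat.prime_dvd_prime_iff_eq hq Fact.out).mp (hq.dvd_of_dvd_pow hd))

/-- The Tate module is unramified at a good prime `q ≠ p`. -/
theorem tateRep_isUnramifiedAt (hΔ : W.Δ ≠ 0) {q : ℕ} (hq : q.Prime) (hqp : q ≠ p)
    (hgood : ¬ (q : ℤ) ∣ W.Δ) : (tateRep W p hΔ).IsUnramifiedAt q := by
  intro A hA σ hσ
  refine LinearMap.ext fun f => ?_
  change (Tate.rep σ f : Tate p (EPoint W)) = f
  refine Subtype.ext <| funext fun n => ?_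
  have := ECLocal.galoisRepUnramifiedAt_of_good W (n := p ^ n) hq hgood (not_dvd_pow_of_ne hq hqp n)
    A hA σ hσ (Tate.proj n f)
  exact congrArg Subtype.val this

/-- An operator `M` on a free module of rank two over a domain with `(M - 1)² = 0` has
characteristic polynomial `(X - 1)²`. -/
theorem charpoly_of_sub_one_sq {R V : Type} [CommRing R] [IsDomain R] [AddCommGroup V] [Module R V]
    [Module.Free R V] [Module.Finite R V] (hV : Module.finrank R V = 2) (M : Module.End R V)
    (hM : (M - 1) ^ 2 = 0) : LinearMap.charpoly M = (X - 1) ^ 2 := by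
  have hnil : IsNilpotent (M - 1) := ⟨2, hM⟩
  have h0 : (M - 1).charpoly = X ^ Module.finrank R V := hnil.charpoly_eq_X_pow_finrank
  rw [hV] at h0
  have h1 : M = (M - 1) + (1 : R) • 1 := by rw [one_smul, sub_add_cancel]
  let b := Module.finBasisOfFinrankEq R V hV
  rw [h1, ← LinearMap.charpoly_toMatrix _ b, map_add, map_smul, LinearMap.toMatrix_one]
  rw [← LinearMap.charpoly_toMatrix _ b] at h0
  set N := LinearMap.toMatrix b b (M - 1)
  rw [Matrix.charpoly_fin_two] at h0 ⊢
  have ht : N.trace = 0 := by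
    have := congrArg (fun P => P.coeff 1) h0
    simpa using this
  have hd : N.det = 0 := by
    have := congrArg (fun P => P.coeff 0) h0
    simpa using this
  rw [Matrix.trace_add, Matrix.trace_smul, Matrix.trace_one, ht]
  simp only [Matrix.det_fin_two, Matrix.trace_fin_two, Matrix.add_apply, Matrix.smul_apply,
    Matrix.one_apply_eq, Matrix.one_apply_ne (show (0 : Fin 2) ≠ 1 by decide),
    Matrix.one_apply_ne (show (1 : Fin 2) ≠ 0 by decide), Fintype.card_fin, smul_eq_mul,
    mul_zero, mul_one, add_zero, zero_add] at ht hd ⊢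
  have : (N 0 0 + 1) * (N 1 1 + 1) - N 0 1 * N 1 0 = 1 := by linear_combination hd + ht
  rw [this]
  simp only [Nat.cast_ofNat, map_one]
  rw [one_mul, show (C (2 : R)) = 2 from map_ofNat C 2]
  ring

/-- Inertia at a semistable prime `q ≠ p` is unipotent on the Tate module. -/
theorem tateRep_isUnipotentOnInertiaAt (hΔ : W.Δ ≠ 0) {q : ℕ} (hq : q.Prime) (hqp : q ≠ p)
    (hss : (q : ℤ) ∣ W.Δ → ¬ (q : ℤ) ∣ W.c₄) :
    (tateRep W p hΔ).IsUnipotentOnInertiaAt q := by
  intro A hA σ hσ
  have := free_tate (p := p) hΔ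
  have := finite_tate (p := p) hΔ
  change LinearMap.charpoly (Tate.rep σ : Module.End ℤ_[p] (Tate p (EPoint W))) = _
  refine charpoly_of_sub_one_sq (finrank_tate hΔ) _ (LinearMap.ext fun f => ?_)
  have h : ∀ n, σ • (σ • (Tate.proj n f) - Tate.proj n f) = σ • Tate.proj n f - Tate.proj n f :=
    fun n => ECLocal.smul_smul_sub_eq_of_semistable W hΔ hq hss (not_dvd_pow_of_ne hq hqp n) hA hσ hσ _
  simp only [sq, Module.End.mul_apply, LinearMap.sub_apply, Module.End.one_apply,
    LinearMap.zero_apply]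
  refine Subtype.ext <| funext fun n => ?_
  have h2 := sub_eq_zero.mpr (congrArg Subtype.val (h n))
  have h3 : σ • (σ • (f : ℕ → EPoint W) n - (f : ℕ → EPoint W) n) -
      (σ • (f : ℕ → EPoint W) n - (f : ℕ → EPoint W) n) = 0 := h2
  rw [smul_sub] at h3
  simpa using h3

/-- Good reduction at `p`: the Tate module is flat at `p`. -/
theorem tateRep_isFlatAt_of_good (hΔ : W.Δ ≠ 0) (hgood : ¬ (p : ℤ) ∣ W.Δ) :
    (tateRep W p hΔ).IsFlatAt p :=
  tateRep_isFlatAt hΔ fun n => ECFormal.hasFlatModel_of_good W Fact.out hgood n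

/-- The trace of Frobenius on the Tate module. -/
theorem tateRep_trace_frobenius (hΔ : W.Δ ≠ 0) (hp2 : p ≠ 2) {l : ℕ} (hl : l.Prime)
    (hlp : l ≠ p) (hgood : W.IsGoodPrimeFor l) {A : ValuationSubring Qb} (hA : A.LiesOverPrime l)
    {σ : Γℚ} (hσ : A.IsFrobeniusAt σ l) :
    LinearMap.trace ℤ_[p] _ ((tateRep W p hΔ).ρ σ) = (W.apOfModel l : ℤ_[p]) := by
  have h := tateRep_charpoly_frobenius hΔ hp2 hl hlp hgood hA hσ
  rw [Density.charpoly_fin_two_eq (tateRep W p hΔ).finrank_eq] at h
  have := congrArg (fun P => P.coeff 1) h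
  simpa using this

end Fermat.Agent.TateE
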