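import Fermat.Agent.TateE.Basic
import Fermat.Prelude.Def_GaloisRep_ResidualEquiv
import Mathlib.LinearAlgebra.TensorProduct.Basis
import Mathlib.LinearAlgebra.FiniteDimensional.Lemmas
import Mathlib.LinearAlgebra.Dimension.OrzechProperty

/-!
The residual representation of a base change of the Tate module is a base change of `E[p]`.
-/

set_option autoImplicit false

noncomputable section

namespace Fermat.Agent.TateE

open WeierstrassCurve
open scoped WeierstrassCurve.Affine TensorProduct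

local notation "Qb" => AlgebraicClosure ℚ
local notation "Γℚ" => (AlgebraicClosure ℚ ≃ₐ[ℚ] AlgebraicClosure ℚ)

variable {W : WeierstrassCurve ℤ} {p : ℕ} [Fact p.Prime]

/-- The first level of the Tate module. -/
def proj₁ : Tate p (EPoint W) →+ ETors W p where
  toFun f := ⟨(f : ℕ → EPoint W) 1, by
    rw [Submodule.mem_torsionBy_iff, natCast_zsmul]
    simpa using f.pow_smul_apply 1⟩
  map_zero' := rfl
  map_add' _ _ := rfl

theorem proj₁_surjective (hΔ : W.Δ ≠ 0) : Function.Surjective (proj₁ (W := W) (p := p)) := fun P => by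
  obtain ⟨f, hf⟩ := exists_tate_apply_eq (card_ETors_pow hΔ) (n := 1) (e := (P : EPoint W))
    (by rw [pow_one, ← natCast_zsmul]; exact P.2)
  exact ⟨f, Subtype.ext hf⟩

theorem proj₁_smul (x : ℤ_[p]) (f : Tate p (EPoint W)) :
    proj₁ (x • f) = PadicInt.toZMod x • proj₁ f := by
  refine Subtype.ext ?_
  obtain ⟨a, ha⟩ := Tate.exists_intCast_eq 1 x
  have hz : PadicInt.toZMod x = (a : ZMod p) := by
    have h : x - (a : ℤ_[p]) ∈ Ideal.span {(p : ℤ_[p]) ^ 1} := by
      rw [← PadicInt.ker_toZModPow, RingHom.mem_ker, map_sub, map_intCast, ha, sub_self]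
    rw [pow_one, ← PadicInt.maximalIdeal_eq_span_p, ← PadicInt.ker_toZMod, RingHom.mem_ker,
      map_sub, map_intCast, sub_eq_zero] at h
    exact h
  rw [hz, Int.cast_smul_eq_zsmul]
  exact Tate.smul_apply x f 1 ha

theorem proj₁_rep (σ : Γℚ) (f : Tate p (EPoint W)) : proj₁ (Tate.rep σ f) = σ • proj₁ f := rfl

/-- The basis of `E[p]` induced by the chosen basis of the Tate module. -/
def torsBasis (hΔ : W.Δ ≠ 0) : Module.Basis (Fin 2) (ZMod p) (ETors W p) :=
  haveI : Finite (ETors W p) := ECTorsion.finite_torsionBy_qbar _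
    (ECTorsion.map_castRingHom_Δ_ne_zero W hΔ) (Fact.out : p.Prime).ne_zero
  haveI : Module.Finite (ZMod p) (ETors W p) := Module.Finite.of_finite
  basisOfTopLeSpanOfCardEqFinrank (fun i => proj₁ (tateBasis (p := p) hΔ i))
    (by
      intro P _
      obtain ⟨f, rfl⟩ := proj₁_surjective (p := p) hΔ P
      rw [← (tateBasis (p := p) hΔ).sum_repr f, map_sum]
      refine Submodule.sum_mem _ fun i _ => ?_
      rw [proj₁_smul]
      exact Submodule.smul_mem _ _ (Submodule.subset_span ⟨i, rfl⟩))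
    (by
      rw [Fintype.card_fin]
      exact (ECTorsion.finrank_torsionBy_qbar _ (ECTorsion.map_castRingHom_Δ_ne_zero W hΔ) p).symm)

theorem torsBasis_apply (hΔ : W.Δ ≠ 0) (i : Fin 2) :
    torsBasis hΔ i = proj₁ (tateBasis (p := p) hΔ i) := by
  simp [torsBasis]

/-- The residual representation of the Tate module, pushed to a local ring `B`, is the base change
of `E[p]` along the map of residue fields. -/
theorem residual_baseChangeAlong_isEquiv (hΔ : W.Δ ≠ 0) {B : Type} [CommRing B] [IsLocalRing B]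
    (φ : ℤ_[p] →+* B) (hφ : IsLocalHom φ) (ψ : ZMod p →+* IsLocalRing.ResidueField B)
    (hcard : Nat.card (ETors W p) = p ^ 2)
    (hker : GaloisFactorsThroughFiniteLevel
      (WeierstrassCurve.Affine.Point.galoisRepModuleEnd (K := Qb) ℚ
        (W.map (Int.castRingHom ℚ)) p)) :
    ((tateRep W p hΔ).baseChangeAlong φ hφ).residual.IsEquiv
      (((W.map (Int.castRingHom ℚ)).residualGaloisRepOf p hcard hker).baseChangeAlong ψ) := by
  let k := IsLocalRing.ResidueField B
  let _ : Algebra ℤ_[p] B := φ.toAlgebra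
  let _ : Algebra (ZMod p) k := ψ.toAlgebra
  have hres : ∀ x : ℤ_[p], IsLocalRing.residue B (φ x) = ψ (PadicInt.toZMod x) := by
    intro x
    obtain ⟨a, ha⟩ := ZMod.intCast_surjective (PadicInt.toZMod x)
    have h : x - (a : ℤ_[p]) ∈ IsLocalRing.maximalIdeal ℤ_[p] := by
      rw [← PadicInt.ker_toZMod, RingHom.mem_ker, map_sub, map_intCast, ha, sub_self]
    have h2 : φ (x - (a : ℤ_[p])) ∈ IsLocalRing.maximalIdeal B :=
      haveI := hφ
      map_nonunit φ _ h
    rw [map_sub, map_intCast, ← IsLocalRing.residue_eq_zero_iff, map_sub, map_intCast,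
      sub_eq_zero] at h2
    rw [h2, ← ha, map_intCast]
  let b := tateBasis (p := p) hΔ
  let bT : Module.Basis (Fin 2) k (k ⊗[B] (B ⊗[ℤ_[p]] Tate p (EPoint W))) :=
    (b.baseChange B).baseChange k
  let bE : Module.Basis (Fin 2) k (k ⊗[ZMod p] ETors W p) := (torsBasis (p := p) hΔ).baseChange k
  let e := bT.equiv bE (Equiv.refl _)
  refine ⟨⟨e, fun σ => ?_⟩⟩
  let L : k ⊗[B] (B ⊗[ℤ_[p]] Tate p (EPoint W)) →ₗ[k] k ⊗[ZMod p] ETors W p :=
    e.toLinearMap ∘ₗ (((Tate.rep σ : Module.End ℤ_[p] (Tate p (EPoint W))).baseChange B).baseChange k)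
  let R : k ⊗[B] (B ⊗[ℤ_[p]] Tate p (EPoint W)) →ₗ[k] k ⊗[ZMod p] ETors W p :=
    ((WeierstrassCurve.Affine.Point.galoisRepModuleEnd (K := Qb) ℚ
      (W.map (Int.castRingHom ℚ)) p σ : Module.End (ZMod p) (ETors W p)).baseChange k) ∘ₗ
      e.toLinearMap
  suffices hLR : L = R from fun x => LinearMap.congr_fun hLR x
  refine bT.ext fun j => ?_
  have hej : ∀ i, e (bT i) = bE i := fun i => by simp [e]
  have hbT : ∀ i, bT i = (1 : k) ⊗ₜ[B] ((1 : B) ⊗ₜ[ℤ_[p]] b i) := fun i => by simp [bT]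
  have hbE : ∀ i, bE i = (1 : k) ⊗ₜ[ZMod p] torsBasis (p := p) hΔ i := fun i => by simp [bE]
  simp only [L, R, LinearMap.comp_apply, LinearEquiv.coe_coe, hej]
  rw [hbT, LinearMap.baseChange_tmul, LinearMap.baseChange_tmul, hbE, LinearMap.baseChange_tmul,
    WeierstrassCurve.Affine.Point.galoisRepModuleEnd_apply, torsBasis_apply, ← proj₁_rep,
    ← b.sum_repr (Tate.rep σ (b j)), map_sum, TensorProduct.tmul_sum, TensorProduct.tmul_sum,
    map_sum, TensorProduct.tmul_sum]
  refine Finset.sum_congr rfl fun i _ => ?_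
  rw [proj₁_smul, ← torsBasis_apply hΔ i, TensorProduct.tmul_smul, TensorProduct.tmul_smul]
  generalize b.repr (Tate.rep σ (b j)) i = c
  rw [← algebraMap_smul B c ((1 : k) ⊗ₜ[B] ((1 : B) ⊗ₜ[ℤ_[p]] b i)),
    ← algebraMap_smul k (algebraMap ℤ_[p] B c) ((1 : k) ⊗ₜ[B] ((1 : B) ⊗ₜ[ℤ_[p]] b i)),
    ← hbT, map_smul, hej, hbE, TensorProduct.tmul_smul, ← algebraMap_smul k (PadicInt.toZMod c)
      ((1 : k) ⊗ₜ[ZMod p] torsBasis (p := p) hΔ i)]
  congr 1
  exact hres _

end Fermat.Agent.TateE
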