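import Fermat.Agent.TateE.StrictOrdinary
import Fermat.Agent.TateE.Residual
import Fermat.Agent.TateE.Local
import Fermat.Agent.Tangent.Conditions
import Fermat.Agent.R59.Final

/-!
The point of the deformation ring given by a semistable curve: the Tate module pushed to `𝒪`.

* `curveRep W p hΔ φ hφ`: the base change of `tateRep W p hΔ` along `φ : ℤ_p →+* 𝒪`.
* `curveRep_isCurveLift`: it lifts `E[p] ⊗ k` and has the Frobenius traces of the model.
* `curveRep_cond`: it satisfies `R59.cond` for the kind allowed by the reduction type at `p`.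
-/

set_option autoImplicit false

noncomputable section

namespace Fermat.Agent.TateE

open WeierstrassCurve IsLocalRing
open scoped WeierstrassCurve.Affine TensorProduct

local notation "Qb" => AlgebraicClosure ℚ
local notation "Γℚ" => (AlgebraicClosure ℚ ≃ₐ[ℚ] AlgebraicClosure ℚ)

/-- Base change of a residual representation along the identity. -/
theorem isEquiv_baseChangeAlong_self {k : Type} [Field k] (ρ : ResidualGaloisRep k) (f : k →+* k)
    (hf : ∀ x, f x = x) : ρ.IsEquiv (ρ.baseChangeAlong f) := by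
  have h : f.toAlgebra = Algebra.id k := Algebra.algebra_ext _ _ hf
  unfold ResidualGaloisRep.baseChangeAlong
  rw [h]
  refine ⟨⟨(TensorProduct.lid k ρ.V).symm, fun σ x => ?_⟩⟩
  change (1 : k) ⊗ₜ[k] ρ.ρ σ x = (ρ.ρ σ).baseChange k ((1 : k) ⊗ₜ[k] x)
  rw [LinearMap.baseChange_tmul]

variable {W : WeierstrassCurve ℤ} {p : ℕ} [Fact p.Prime]

theorem card_ETors (hΔ : W.Δ ≠ 0) : Nat.card (ETors W p) = p ^ 2 := by
  have h := card_ETors_pow (p := p) hΔ 1
  rwa [pow_one] at h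

section Lift

variable {𝒪 : Type} [CommRing 𝒪] [IsLocalRing 𝒪]

variable (W p) in
/-- The Tate module pushed to `𝒪`. -/
def curveRep (hΔ : W.Δ ≠ 0) (φ : ℤ_[p] →+* 𝒪) (hφ : IsLocalHom φ) : GaloisRepAdic 𝒪 :=
  (tateRep W p hΔ).baseChangeAlong φ hφ

variable (hΔ : W.Δ ≠ 0) (φ : ℤ_[p] →+* 𝒪) (hφ : IsLocalHom φ)

theorem curveRep_trace (hp2 : p ≠ 2) {l : ℕ} (hl : l.Prime) (hgood : W.IsGoodPrimeFor l)
    (hlp : l ≠ p) {A : ValuationSubring Qb} (hA : A.LiesOverPrime l) {σ : Γℚ}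
    (hσ : A.IsFrobeniusAt σ l) :
    LinearMap.trace 𝒪 (curveRep W p hΔ φ hφ).V ((curveRep W p hΔ φ hφ).ρ σ) =
      ((W.apOfModel l : ℤ) : 𝒪) :=
  (R59.trace_baseChangeAlong φ hφ (tateRep W p hΔ) σ).trans <| by
    rw [tateRep_trace_frobenius hΔ hp2 hl hlp hgood hA hσ, map_intCast]

theorem curveRep_detIsCyclotomic (hp2 : p ≠ 2) :
    (curveRep W p hΔ φ hφ).DetIsCyclotomic p :=
  Tangent.detIsCyclotomic_baseChangeAlong φ hφ (tateRep_detIsCyclotomic hΔ hp2)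

theorem curveRep_isUnramifiedAt {q : ℕ} (hq : q.Prime) (hqp : q ≠ p)
    (hgood : ¬ (q : ℤ) ∣ W.Δ) : (curveRep W p hΔ φ hφ).IsUnramifiedAt q :=
  Tangent.isUnramifiedAt_baseChangeAlong φ hφ (tateRep_isUnramifiedAt hΔ hq hqp hgood)

theorem curveRep_isUnipotentOnInertiaAt {q : ℕ} (hq : q.Prime) (hqp : q ≠ p)
    (hss : (q : ℤ) ∣ W.Δ → ¬ (q : ℤ) ∣ W.c₄) :
    (curveRep W p hΔ φ hφ).IsUnipotentOnInertiaAt q :=
  Tangent.isUnipotentOnInertiaAt_baseChangeAlong φ hφ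
    (tateRep_isUnipotentOnInertiaAt hΔ hq hqp hss)

theorem curveRep_isFlatAt (hres : Finite (ResidueField 𝒪)) (hgood : ¬ (p : ℤ) ∣ W.Δ) :
    (curveRep W p hΔ φ hφ).IsFlatAt p :=
  isFlatAt_baseChangeAlong_of_finite φ hφ hres (tateRep_isFlatAt_of_good hΔ hgood)

theorem curveRep_isStrictOrdinaryAt (hp2 : p ≠ 2) (hd : (p : ℤ) ∣ W.Δ)
    (hc : ¬ (p : ℤ) ∣ W.c₄) : (curveRep W p hΔ φ hφ).IsStrictOrdinaryAt p :=
  Tangent.isStrictOrdinaryAt_baseChangeAlong φ hφ (tateRep_isStrictOrdinaryAt hΔ hp2 hd hc)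

theorem curveRep_cond [Algebra 𝒪 𝒪] (hp2 : p ≠ 2) (hW : W.IsSemistableModel) (k : R59.Kind)
    (hflat : k = .flat → ¬ (p : ℤ) ∣ W.Δ ∧ Finite (ResidueField 𝒪))
    (hmult : k ≠ .flat → (p : ℤ) ∣ W.Δ) (S Smin : Finset ℕ) (hpS : p ∈ S)
    (hS : ∀ q : ℕ, q.Prime → (q : ℤ) ∣ W.Δ → q ∈ S) :
    R59.cond k 𝒪 p S Smin (curveRep W p hΔ φ hφ) := by
  have hdet := curveRep_detIsCyclotomic hΔ φ hφ hp2
  have hur : ∀ q : ℕ, q.Prime → q ∉ S → (curveRep W p hΔ φ hφ).IsUnramifiedAt q :=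
    fun q hq hqS => curveRep_isUnramifiedAt hΔ φ hφ hq (fun e => hqS (e ▸ hpS))
      fun hd => hqS (hS q hq hd)
  have hstrict : k ≠ .flat → (curveRep W p hΔ φ hφ).IsStrictOrdinaryAt p := fun hk =>
    curveRep_isStrictOrdinaryAt hΔ φ hφ hp2 (hmult hk) (hW p Fact.out (hmult hk))
  refine ⟨?_, fun q _ hq hqp => curveRep_isUnipotentOnInertiaAt hΔ φ hφ hq hqp (hW q hq)⟩
  cases k with
  | flat => exact ⟨hdet, curveRep_isFlatAt hΔ φ hφ (hflat rfl).2 (hflat rfl).1, hur⟩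
  | strict => exact ⟨hdet, hstrict (by decide), hur⟩
  | ord => exact ⟨hdet, (hstrict (by decide)).isOrdinaryAt, hur⟩

end Lift

section CurveLift

variable {𝒪 : Type} [CommRing 𝒪] [IsDomain 𝒪] [IsDiscreteValuationRing 𝒪]

/-- The Tate module pushed to `𝒪` is a lift of `E[p] ⊗ k` with the traces of the model. -/
theorem curveRep_isCurveLift (hΔ : W.Δ ≠ 0) (hp2 : p ≠ 2) (φ : ℤ_[p] →+* 𝒪) (hφ : IsLocalHom φ)
    (hcard : Nat.card (Submodule.torsionBy ℤ
      ((W.map (Int.castRingHom ℚ))⁄(AlgebraicClosure ℚ)).Point p) = p ^ 2)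
    (hker : GaloisFactorsThroughFiniteLevel
      (WeierstrassCurve.Affine.Point.galoisRepModuleEnd (K := Qb) ℚ
        (W.map (Int.castRingHom ℚ)) p))
    (ψ : ZMod p →+* ResidueField 𝒪) :
    R59.IsCurveLift W p
      (((W.map (Int.castRingHom ℚ)).residualGaloisRepOf p hcard hker).baseChangeAlong ψ)
      (curveRep W p hΔ φ hφ) where
  residual := by
    obtain ⟨e₁⟩ := residual_baseChangeAlong_isEquiv hΔ φ hφ ψ hcard hker
    obtain ⟨e₂⟩ := isEquiv_baseChangeAlong_self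
      (((W.map (Int.castRingHom ℚ)).residualGaloisRepOf p hcard hker).baseChangeAlong ψ)
      (ResidueField.map (algebraMap 𝒪 𝒪)) (fun x => by
        obtain ⟨y, rfl⟩ := residue_surjective x
        rfl)
    exact ⟨e₁.trans e₂⟩
  trace := fun _ hl hgood hlp _ hA _ hσ => curveRep_trace hΔ φ hφ hp2 hl hgood hlp hA hσ

end CurveLift

end Fermat.Agent.TateE
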