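import Mathlib
import Fermat.Agent.TateE.Basic
import Fermat.Agent.ECFrob.Main
import Fermat.Agent.WeilPairing.Det
import Fermat.Agent.Density.Qbar
import Fermat.Agent.Density.Quadratic
import Fermat.Agent.Density.Rep
import Fermat.Agent.Galois.Cyclotomic
import Fermat.Prelude.Def_GaloisRep_ComplexConjugation
import Fermat.Prelude.Def_GaloisRep_LocalConditions

/-!
The determinant of the Tate module is the cyclotomic character, and the characteristic polynomial
of Frobenius is `X² - a_l X + l`.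
-/

set_option autoImplicit false

noncomputable section

namespace Fermat.Agent.TateE

open WeierstrassCurve Polynomial
open scoped WeierstrassCurve.Affine

local notation "Qb" => AlgebraicClosure ℚ
local notation "Γℚ" => (AlgebraicClosure ℚ ≃ₐ[ℚ] AlgebraicClosure ℚ)

/-- `σ` raises all `N`-th roots of unity to the power `d`. -/
def CycAt (N : ℕ) (σ : Γℚ) (d : ℕ) : Prop := ∀ μ : Qb, μ ^ N = 1 → σ μ = μ ^ d

theorem exists_cycAt {N : ℕ} (hN : N ≠ 0) (σ : Γℚ) : ∃ d, CycAt N σ d := by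
  have : NeZero N := ⟨hN⟩
  obtain ⟨ζ, hζ⟩ := HasEnoughRootsOfUnity.exists_primitiveRoot Qb N
  obtain ⟨d, -, hd⟩ := hζ.eq_pow_of_pow_eq_one
    (show σ ζ ^ N = 1 by rw [← map_pow, hζ.pow_eq_one, map_one])
  refine ⟨d, fun μ hμ => ?_⟩
  obtain ⟨i, -, rfl⟩ := hζ.eq_pow_of_pow_eq_one hμ
  rw [map_pow, ← hd, ← pow_mul, ← pow_mul, mul_comm]

theorem CycAt.cast_eq {N : ℕ} (hN : N ≠ 0) {σ : Γℚ} {d d' : ℕ} (h : CycAt N σ d)
    (h' : CycAt N σ d') : (d : ZMod N) = d' := by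
  have : NeZero N := ⟨hN⟩
  obtain ⟨ζ, hζ⟩ := HasEnoughRootsOfUnity.exists_primitiveRoot Qb N
  have he : ζ ^ d = ζ ^ d' := (h ζ hζ.pow_eq_one).symm.trans (h' ζ hζ.pow_eq_one)
  have hu : IsUnit ζ := isUnit_iff_ne_zero.mpr (hζ.ne_zero hN)
  rw [ZMod.natCast_eq_natCast_iff, Nat.ModEq, hζ.eq_orderOf, ← hu.unit_spec, orderOf_units]
  exact pow_eq_pow_iff_modEq.mp (Units.ext (by simpa using he))

theorem CycAt.mul {N : ℕ} {σ τ : Γℚ} {d e : ℕ} (h : CycAt N σ d) (h' : CycAt N τ e) :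
    CycAt N (σ * τ) (d * e) := fun μ hμ => by
  rw [AlgEquiv.mul_apply, h' μ hμ, map_pow, h μ hμ, pow_mul]

theorem CycAt.pow {N : ℕ} {σ : Γℚ} {d : ℕ} (h : CycAt N σ d) : ∀ k, CycAt N (σ ^ k) (d ^ k)
  | 0 => fun μ _ => by simp
  | k + 1 => by rw [pow_succ, pow_succ]; exact (h.pow k).mul h

theorem CycAt.of_dvd {N N' : ℕ} {σ : Γℚ} {d : ℕ} (hNN : N' ∣ N) (h : CycAt N σ d) :
    CycAt N' σ d := fun μ hμ => h μ (by
  obtain ⟨c, rfl⟩ := hNN
  rw [pow_mul, hμ, one_pow])

theorem cycAt_complexConjugation {N : ℕ} (hN : N ≠ 0) :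
    CycAt N complexConjugation (N - 1) := fun μ hμ => by
  have hμ0 : μ ≠ 0 := fun h => by simp [h, zero_pow hN] at hμ
  have hinv : μ ^ (N - 1) = μ⁻¹ := by
    apply eq_inv_of_mul_eq_one_left
    rw [← pow_succ, Nat.sub_add_cancel (Nat.pos_of_ne_zero hN), hμ]
  rw [hinv]
  refine complexEmbedding.injective (?_ : complexEmbedding (complexConjugation μ) = complexEmbedding μ⁻¹)
  rw [complexEmbedding_complexConjugation, map_inv₀, Complex.inv_eq_conj]
  exact Complex.norm_eq_one_of_pow_eq_one (by rw [← map_pow, hμ, map_one]) hN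

theorem isFrobeniusAt_cycAt {A : ValuationSubring Qb} {l : ℕ} {σ : Γℚ} (hA : A.LiesOverPrime l)
    (hl : l.Prime) (h : A.IsFrobeniusAt σ l) {N : ℕ} (hN : ¬ l ∣ N) : CycAt N σ l :=
  fun _ hμ => Galois.isFrobeniusAt_apply_rootOfUnity hA hl h hN hμ

variable {W : WeierstrassCurve ℤ} {p : ℕ} [Fact p.Prime]

/-- A finite level containing the coordinates of `E[N]` and the `N`-th roots of unity. -/
theorem exists_level (hΔ : W.Δ ≠ 0) {N : ℕ} (hN : N ≠ 0) :
    ∃ L : IntermediateField ℚ Qb, FiniteDimensional ℚ L ∧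
      ∀ g h : Γℚ, (∀ x ∈ L, g x = h x) →
        (∀ P : ETors W N, g • P = h • P) ∧ ∀ d, CycAt N g d → CycAt N h d := by
  have : NeZero N := ⟨hN⟩
  obtain ⟨L, hL, hfix⟩ := ECTorsion.exists_finite_level (S := ℚ) (K := Qb)
    (W := W.map (Int.castRingHom ℚ))
    (ECTorsion.algebraMap_qbar_Δ_ne_zero _ (ECTorsion.map_castRingHom_Δ_ne_zero W hΔ))
    (n := N) (Nat.cast_ne_zero.mpr hN)
  obtain ⟨ζ, hζ⟩ := HasEnoughRootsOfUnity.exists_primitiveRoot Qb N
  have hfd : FiniteDimensional ℚ (IntermediateField.adjoin ℚ ({ζ} : Set Qb)) :=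
    IntermediateField.adjoin.finiteDimensional
      (IsIntegral.of_pow (Nat.pos_of_ne_zero hN) (by rw [hζ.pow_eq_one]; exact isIntegral_one))
  refine ⟨L ⊔ IntermediateField.adjoin ℚ ({ζ} : Set Qb), inferInstance,
    fun g h hgh => ⟨fun P => ?_, fun d hd μ hμ => ?_⟩⟩
  · have h1 : (h⁻¹ * g) • P = P := hfix _ (fun x hx => by
      rw [AlgEquiv.mul_apply, hgh x (le_sup_left (α := IntermediateField ℚ Qb) hx),
        ← AlgEquiv.mul_apply, inv_mul_cancel, AlgEquiv.one_apply]) P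
    rw [mul_smul, inv_smul_eq_iff] at h1
    exact h1
  · obtain ⟨i, -, rfl⟩ := hζ.eq_pow_of_pow_eq_one hμ
    rw [← hgh (ζ ^ i) (le_sup_right (α := IntermediateField ℚ Qb)
      (pow_mem (IntermediateField.mem_adjoin_simple_self ℚ ζ) i)), hd _ hμ]

/-- The endomorphism of `E[N]` given by a Galois element. -/
def torsEnd (W : WeierstrassCurve ℤ) (N : ℕ) : Γℚ →* Module.End ℤ (ETors W N) :=
  DistribMulAction.toModuleEnd ℤ (ETors W N)

omit [Fact p.Prime] in
theorem exists_quadratic_relation (hΔ : W.Δ ≠ 0) {N : ℕ} (hN : N ≠ 0) (g : Γℚ) :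
    ∃ (t : ℤ) (d : ℕ), CycAt N g d ∧
      ∀ P : ETors W N, g • g • P - t • g • P + (d : ℤ) • P = 0 := by
  obtain ⟨L, hL, hlev⟩ := exists_level hΔ hN
  refine Density.forall_of_forall_frobenius_pow (P := fun g => ∃ (t : ℤ) (d : ℕ), CycAt N g d ∧
      ∀ P : ETors W N, g • g • P - t • g • P + (d : ℤ) • P = 0) L ?_
    ((N * W.Δ.natAbs).primeFactors) ?_ g
  · rintro g h hgh ⟨t, d, hd, hrel⟩
    obtain ⟨h1, h2⟩ := hlev g h hgh
    refine ⟨t, d, h2 d hd, fun P => ?_⟩
    rw [← h1 P, ← h1 (g • P)]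
    exact hrel P
  · intro l hl hlS A hA σ hσ k
    have hlS' : ¬ l ∣ N * W.Δ.natAbs := fun hd => hlS (Nat.mem_primeFactors.mpr
      ⟨hl, hd, mul_ne_zero hN (Int.natAbs_ne_zero.mpr hΔ)⟩)
    have hlN : ¬ l ∣ N := fun hd => hlS' (hd.mul_right _)
    have hgood : W.IsGoodPrimeFor l := fun hd => hlS' ((Int.natCast_dvd.mp hd).mul_left _)
    have hrel : torsEnd W N σ ^ 2 - (W.apOfModel l) • torsEnd W N σ +
        algebraMap ℤ (Module.End ℤ (ETors W N)) l = 0 := by
      refine LinearMap.ext fun P => ?_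
      simp only [LinearMap.add_apply, LinearMap.sub_apply, sq, Module.End.mul_apply,
        LinearMap.smul_apply, Module.algebraMap_end_apply, LinearMap.zero_apply]
      exact ECFrob.smul_smul_sub_apOfModel_smul_add W hl hlN hgood A hA σ hσ P
    obtain ⟨c, hc⟩ := Density.exists_quadratic_pow hrel k
    refine ⟨c, l ^ k, (isFrobeniusAt_cycAt hA hl hσ hlN).pow k, fun P => ?_⟩
    have := LinearMap.congr_fun hc P
    simp only [LinearMap.add_apply, LinearMap.sub_apply, sq, Module.End.mul_apply,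
      LinearMap.smul_apply, Module.algebraMap_end_apply, LinearMap.zero_apply,
      ← map_pow (torsEnd W N) σ k] at this
    rw [Nat.cast_pow]
    exact this

/-- `g` does not act on `E[p]` as a scalar. -/
def NonScalar (W : WeierstrassCurve ℤ) (p : ℕ) (g : Γℚ) : Prop :=
  ¬ ∃ k : ℤ, ∀ P : ETors W p, g • P = k • P

theorem nonScalar_complexConjugation (hΔ : W.Δ ≠ 0) (hp2 : p ≠ 2) :
    NonScalar W p complexConjugation := by
  rintro ⟨k, hk⟩
  have : NeZero p := ⟨(Fact.out : p.Prime).ne_zero⟩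
  have hΔ' : (W.map (Int.castRingHom ℚ)).Δ ≠ 0 := ECTorsion.map_castRingHom_Δ_ne_zero W hΔ
  have hfr := ECTorsion.finrank_torsionBy_qbar _ hΔ' p
  have hfin : Module.Finite (ZMod p) (ETors W p) := by
    have := ECTorsion.finite_torsionBy_qbar _ hΔ' (Fact.out : p.Prime).ne_zero
    exact Module.Finite.of_finite
  have hdet := WeilPairing.det_galoisRep_eq_natCast (S := ℚ) (K := Qb)
    (W.map (Int.castRingHom ℚ)) ((map_ne_zero_iff _ (algebraMap ℚ Qb).injective).mpr hΔ') p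
    (Nat.cast_ne_zero.mpr (Fact.out : p.Prime).ne_zero) complexConjugation
    (q := p - 1) (cycAt_complexConjugation (Fact.out : p.Prime).ne_zero)
  have hlin : ((WeierstrassCurve.Affine.Point.galoisRep (S := ℚ) (K := Qb)
      (W.map (Int.castRingHom ℚ)) p complexConjugation : ETors W p ≃ₗ[ZMod p] ETors W p) :
      ETors W p →ₗ[ZMod p] ETors W p) = (k : ZMod p) • LinearMap.id := by
    refine LinearMap.ext fun P => ?_
    rw [LinearMap.smul_apply, LinearMap.id_apply, Int.cast_smul_eq_zsmul]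
    exact hk P
  rw [LinearEquiv.coe_det, hlin, LinearMap.det_smul, hfr, LinearMap.det_id, mul_one,
    Nat.cast_sub (Fact.out : p.Prime).one_lt.le, ZMod.natCast_self, zero_sub, Nat.cast_one] at hdet
  have hnt : Nontrivial (ETors W p) := Module.nontrivial_of_finrank_pos (R := ZMod p) (hfr ▸ Nat.two_pos)
  obtain ⟨P, hP⟩ := exists_ne (0 : ETors W p)
  have h2 : ((k : ZMod p) ^ 2) • P = (1 : ZMod p) • P := by
    rw [one_smul, sq, mul_smul, Int.cast_smul_eq_zsmul, Int.cast_smul_eq_zsmul, ← hk P, ← hk,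
      ← mul_smul, complexConjugation_mul_self, one_smul]
  rw [hdet, ← sub_eq_zero, ← sub_smul] at h2
  rcases smul_eq_zero.mp h2 with h | h
  · have h3 : ((2 : ℕ) : ZMod p) = 0 := by
      rw [← neg_eq_zero, ← h]; push_cast; ring
    rw [ZMod.natCast_eq_zero_iff] at h3
    exact hp2 ((Nat.prime_dvd_prime_iff_eq Fact.out Nat.prime_two).mp h3)
  · exact hP h

end Fermat.Agent.TateE
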