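import Fermat.Agent.TateE.Det

/-!
`DetIsCyclotomic` for the Tate module and the characteristic polynomial of Frobenius.
-/

set_option autoImplicit false

noncomputable section

namespace Fermat.Agent.TateE

open WeierstrassCurve Polynomial
open scoped WeierstrassCurve.Affine

local notation "Qb" => AlgebraicClosure ℚ
local notation "Γℚ" => (AlgebraicClosure ℚ ≃ₐ[ℚ] AlgebraicClosure ℚ)

variable {W : WeierstrassCurve ℤ} {p : ℕ} [Fact p.Prime]

theorem smul_level_apply (x : ℤ_[p]) (f : Tate p (EPoint W)) (n : ℕ) {a : ℤ}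
    (ha : (a : ZMod (p ^ n)) = PadicInt.toZModPow n x) :
    Tate.proj n (x • f) = a • Tate.proj n f :=
  Subtype.ext (Tate.smul_apply x f n ha)

/-- An operator on the Tate module whose `n`-th level vanishes has coefficients in `p ^ n`. -/
theorem toMatrix_mem_of_level (hΔ : W.Δ ≠ 0) (n : ℕ)
    (M : Module.End ℤ_[p] (Tate p (EPoint W))) (h : ∀ f, Tate.proj n (M f) = 0) (i j : Fin 2) :
    LinearMap.toMatrix (tateBasis hΔ) (tateBasis hΔ) M i j ∈ Ideal.span {(p : ℤ_[p]) ^ n} := by
  rw [LinearMap.toMatrix_apply]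
  have hm := Tate.mem_of_apply_eq_zero n (congrArg Subtype.val (h (tateBasis hΔ j)))
  rw [Submodule.ideal_span_singleton_smul] at hm
  obtain ⟨g, -, hg⟩ := hm
  change (p : ℤ_[p]) ^ n • g = _ at hg
  rw [← hg, map_smul, Finsupp.smul_apply, smul_eq_mul]
  exact Ideal.mul_mem_right _ _ (Ideal.mem_span_singleton_self _)

theorem cayleyHamilton_tate (hΔ : W.Δ ≠ 0) (g : Γℚ) (f : Tate p (EPoint W)) :
    Tate.rep g (Tate.rep g f) -
        LinearMap.trace ℤ_[p] _ (Tate.rep g : Module.End ℤ_[p] (Tate p (EPoint W))) • Tate.rep g f +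
        LinearMap.det (Tate.rep g : Module.End ℤ_[p] (Tate p (EPoint W))) • f = 0 := by
  have := free_tate (p := p) hΔ
  have := finite_tate (p := p) hΔ
  have h := LinearMap.aeval_self_charpoly (Tate.rep g : Module.End ℤ_[p] (Tate p (EPoint W)))
  rw [Density.charpoly_fin_two_eq (finrank_tate hΔ)] at h
  have h2 := LinearMap.congr_fun h f
  simpa [sq] using h2

/-- The determinant on the Tate module is cyclotomic at a `g` which is not scalar mod `p`. -/
theorem det_sub_mem_of_nonScalar (hΔ : W.Δ ≠ 0) {g : Γℚ} (hg : NonScalar W p g) {n d : ℕ}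
    (hd : CycAt (p ^ n) g d) :
    LinearMap.det (Tate.rep g : Module.End ℤ_[p] (Tate p (EPoint W))) - (d : ℤ_[p]) ∈
      Ideal.span {(p : ℤ_[p]) ^ n} := by
  obtain ⟨t, d', hd', hrel⟩ := exists_quadratic_relation hΔ (N := p ^ n)
    (pow_ne_zero _ (Fact.out : p.Prime).ne_zero) g
  have hdd : (d : ℤ_[p]) - d' ∈ Ideal.span {(p : ℤ_[p]) ^ n} := by
    rw [← PadicInt.ker_toZModPow, RingHom.mem_ker, map_sub, map_natCast, map_natCast,
      hd.cast_eq (pow_ne_zero _ (Fact.out : p.Prime).ne_zero) hd', sub_self]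
  set M : Module.End ℤ_[p] (Tate p (EPoint W)) := Tate.rep g with hM
  set τ := LinearMap.trace ℤ_[p] _ M with hτ
  set D := LinearMap.det M with hD
  let E : Module.End ℤ_[p] (Tate p (EPoint W)) :=
    (τ - (t : ℤ_[p])) • M - (D - (d' : ℤ_[p])) • 1
  have hE : ∀ f, Tate.proj n (E f) = 0 := by
    intro f
    have hch := cayleyHamilton_tate hΔ g f
    have h1 : E f = (Tate.rep g (Tate.rep g f) - (t : ℤ_[p]) • Tate.rep g f + (d' : ℤ_[p]) • f) -
        (Tate.rep g (Tate.rep g f) - τ • Tate.rep g f + D • f) := by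
      simp only [E, LinearMap.sub_apply, LinearMap.smul_apply, Module.End.one_apply, sub_smul]
      change τ • Tate.rep g f - (t : ℤ_[p]) • Tate.rep g f - (D • f - (d' : ℤ_[p]) • f) = _
      abel
    rw [h1, hτ, hD, hM, hch, sub_zero, map_add, map_sub,
      smul_level_apply (t : ℤ_[p]) _ n (a := t) (by simp),
      smul_level_apply (d' : ℤ_[p]) f n (a := (d' : ℤ)) (by simp)]
    exact hrel (Tate.proj n f)
  have hmem := toMatrix_mem_of_level hΔ n E hE
  set b := tateBasis (p := p) hΔ
  set N := LinearMap.toMatrix b b M with hN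
  have hEN : LinearMap.toMatrix b b E =
      (τ - (t : ℤ_[p])) • N - (D - (d' : ℤ_[p])) • (1 : Matrix (Fin 2) (Fin 2) ℤ_[p]) := by
    rw [map_sub, map_smul, map_smul, LinearMap.toMatrix_one]
  have h00 := hmem 0 0
  have h11 := hmem 1 1
  have h01 := hmem 0 1
  have h10 := hmem 1 0
  rw [hEN] at h00 h11 h01 h10
  simp at h00 h11 h01 h10
  -- some coefficient is a unit
  have hunit : IsUnit (N 0 1) ∨ IsUnit (N 1 0) ∨ IsUnit (N 0 0 - N 1 1) := by
    by_contra hcon
    simp only [not_or] at hcon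
    obtain ⟨u01, u10, udiag⟩ := hcon
    have toMem : ∀ {x : ℤ_[p]}, ¬ IsUnit x → x ∈ Ideal.span {(p : ℤ_[p]) ^ 1} := fun hx => by
      rw [pow_one, ← PadicInt.maximalIdeal_eq_span_p]; exact hx
    obtain ⟨k, hk⟩ := Tate.exists_intCast_eq 1 (N 0 0)
    refine hg ⟨k, fun P => ?_⟩
    obtain ⟨f, hf⟩ := Tate.proj_surjective (card_ETors_pow hΔ) 1 (⟨P, by
      rw [pow_one]; exact P.2⟩ : ETors W (p ^ 1))
    have hdiff : M f - N 0 0 • f ∈
        Ideal.span {(p : ℤ_[p]) ^ 1} • (⊤ : Submodule ℤ_[p] (Tate p (EPoint W))) := by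
      rw [← b.sum_repr (M f - N 0 0 • f)]
      refine Submodule.sum_mem _ fun i _ => Submodule.smul_mem_smul ?_ Submodule.mem_top
      rw [map_sub, map_smul, Finsupp.sub_apply, Finsupp.smul_apply, smul_eq_mul]
      have hrepr : b.repr (M f) i = ∑ j, N i j * b.repr f j :=
        (congrFun (LinearMap.toMatrix_mulVec_repr b b M f) i).symm
      rw [hrepr, Fin.sum_univ_two]
      fin_cases i <;> simp only [Fin.zero_eta, Fin.isValue, Fin.mk_one]
      · rw [add_sub_cancel_left]
        exact Ideal.mul_mem_right _ _ (toMem u01)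
      · rw [add_sub_assoc, ← sub_mul]
        refine add_mem (Ideal.mul_mem_right _ _ (toMem u10)) (Ideal.mul_mem_right _ _ ?_)
        rw [← neg_sub]
        exact neg_mem (toMem udiag)
    have h0 := Tate.apply_eq_zero_of_mem 1 hdiff
    rw [AddSubgroup.coe_sub, Pi.sub_apply, sub_eq_zero, Tate.smul_apply (N 0 0) f 1 hk] at h0
    have hfP : (f : ℕ → EPoint W) 1 = (P : EPoint W) := congrArg Subtype.val hf
    refine Subtype.ext ?_
    change g • (P : EPoint W) = k • (P : EPoint W)
    rw [← hfP, ← h0]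
    rfl
  have hτt : τ - (t : ℤ_[p]) ∈ Ideal.span {(p : ℤ_[p]) ^ n} := by
    rcases hunit with hu | hu | hu
    · exact (Ideal.mul_unit_mem_iff_mem _ hu).mp h01
    · exact (Ideal.mul_unit_mem_iff_mem _ hu).mp h10
    · refine (Ideal.mul_unit_mem_iff_mem _ hu).mp ?_
      have := sub_mem h00 h11
      convert this using 1
      ring
  have : D - (d' : ℤ_[p]) ∈ Ideal.span {(p : ℤ_[p]) ^ n} := by
    have := sub_mem (Ideal.mul_mem_right (N 0 0) _ hτt) h00
    convert this using 1
    ring
  have := sub_mem this hdd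
  convert this using 1
  ring

/-- The determinant of the Tate module is the cyclotomic character. -/
theorem tateRep_detIsCyclotomic (hΔ : W.Δ ≠ 0) (hp2 : p ≠ 2) :
    (tateRep W p hΔ).DetIsCyclotomic p := by
  refine ⟨PadicInt.p_nonunit, fun n σ a ha => ?_⟩
  rw [Nat.cast_pow]
  change LinearMap.det (Tate.rep σ : Module.End ℤ_[p] (Tate p (EPoint W))) - _ ∈ _
  by_cases hσ : NonScalar W p σ
  · exact det_sub_mem_of_nonScalar hΔ hσ ha
  · set c := complexConjugation
    have hc : NonScalar W p c := nonScalar_complexConjugation hΔ hp2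
    have hσc : NonScalar W p (σ * c) := by
      unfold NonScalar at hσ
      push Not at hσ
      obtain ⟨k, hk⟩ := hσ
      rintro ⟨l, hl⟩
      refine hc ⟨?_, ?_⟩
      · exact (((k : ZMod p)⁻¹ * l).val : ℤ)
      · intro P
        have h1 := hl P
        rw [mul_smul, hk] at h1
        have hk0 : (k : ZMod p) ≠ 0 := by
          intro h0
          obtain ⟨P, hP⟩ : ∃ P : ETors W p, P ≠ 0 := by
            by_contra hall
            push Not at hall
            exact hc ⟨0, fun P => by rw [hall P, smul_zero, zero_smul]⟩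
          have h2 : σ • P = (k : ZMod p) • P := by rw [hk, Int.cast_smul_eq_zsmul]
          rw [h0, zero_smul] at h2
          exact hP ((smul_eq_zero_iff_eq σ).mp h2)
        rw [← Int.cast_smul_eq_zsmul (ZMod p) k, ← Int.cast_smul_eq_zsmul (ZMod p) l] at h1
        rw [← Int.cast_smul_eq_zsmul (ZMod p), Int.cast_natCast, ZMod.natCast_zmod_val, mul_smul,
          ← h1, inv_smul_smul₀ hk0]
    have hN0 : p ^ n ≠ 0 := pow_ne_zero _ (Fact.out : p.Prime).ne_zero
    have hdc := cycAt_complexConjugation hN0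
    have key := det_sub_mem_of_nonScalar hΔ hσc ((show CycAt (p ^ n) σ a from ha).mul hdc)
    have key2 := det_sub_mem_of_nonScalar hΔ hc hdc
    rw [map_mul, map_mul, Nat.cast_mul] at key
    set D := LinearMap.det (Tate.rep σ : Module.End ℤ_[p] (Tate p (EPoint W)))
    set Dc := LinearMap.det (Tate.rep c : Module.End ℤ_[p] (Tate p (EPoint W)))
    have hunit : IsUnit Dc := by
      refine IsUnit.of_mul_eq_one Dc ?_
      rw [← map_mul, ← map_mul, complexConjugation_mul_self, map_one, map_one]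
    refine (Ideal.mul_unit_mem_iff_mem _ hunit).mp ?_
    have := sub_mem key (Ideal.mul_mem_left _ (a : ℤ_[p]) key2)
    convert this using 1
    ring

/-- The characteristic polynomial of Frobenius on the Tate module. -/
theorem tateRep_charpoly_frobenius (hΔ : W.Δ ≠ 0) (hp2 : p ≠ 2) {l : ℕ} (hl : l.Prime)
    (hlp : l ≠ p) (hgood : W.IsGoodPrimeFor l) {A : ValuationSubring Qb} (hA : A.LiesOverPrime l)
    {σ : Γℚ} (hσ : A.IsFrobeniusAt σ l) :
    LinearMap.charpoly ((tateRep W p hΔ).ρ σ) =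
      X ^ 2 - C (W.apOfModel l : ℤ_[p]) * X + C (l : ℤ_[p]) := by
  have := free_tate (p := p) hΔ
  have := finite_tate (p := p) hΔ
  change LinearMap.charpoly (Tate.rep σ : Module.End ℤ_[p] (Tate p (EPoint W))) = _
  have hndvd : ∀ n, ¬ l ∣ p ^ n := fun n hd =>
    hlp ((Nat.prime_dvd_prime_iff_eq hl Fact.out).mp (hl.dvd_of_dvd_pow hd))
  have hdet : LinearMap.det (Tate.rep σ : Module.End ℤ_[p] (Tate p (EPoint W))) = (l : ℤ_[p]) := by
    refine PadicInt.ext_of_toZModPow.mp fun n => ?_
    rw [← sub_eq_zero, ← map_sub, ← RingHom.mem_ker, PadicInt.ker_toZModPow, ← Nat.cast_pow]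
    exact (tateRep_detIsCyclotomic hΔ hp2).2 n σ l (isFrobeniusAt_cycAt hA hl hσ (hndvd n))
  have htr : LinearMap.trace ℤ_[p] _ (Tate.rep σ : Module.End ℤ_[p] (Tate p (EPoint W))) = (W.apOfModel l : ℤ_[p]) := by
    have hzero : ∀ f : Tate p (EPoint W),
        (LinearMap.trace ℤ_[p] _ (Tate.rep σ : Module.End ℤ_[p] (Tate p (EPoint W))) - (W.apOfModel l : ℤ_[p])) •
          Tate.rep σ f = 0 := by
      intro f
      have hch := cayleyHamilton_tate hΔ σ f
      rw [hdet] at hch
      have hrel : Tate.rep σ (Tate.rep σ f) - (W.apOfModel l : ℤ_[p]) • Tate.rep σ f +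
          (l : ℤ_[p]) • f = 0 := Subtype.ext <| funext fun n => by
        simp only [AddSubgroup.coe_add, AddSubgroup.coe_sub, Pi.add_apply, Pi.sub_apply,
          Tate.rep_apply, Tate.smul_apply (W.apOfModel l : ℤ_[p]) _ n (a := W.apOfModel l) (by simp),
          Tate.smul_apply (l : ℤ_[p]) _ n (a := (l : ℤ)) (by simp), ZeroMemClass.coe_zero,
          Pi.zero_apply]
        exact congrArg Subtype.val (ECFrob.smul_smul_sub_apOfModel_smul_add W hl (hndvd n) hgood A
          hA σ hσ (Tate.proj n f))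
      have h' := sub_eq_zero.mpr (hrel.trans hch.symm)
      linear_combination (norm := module) h'
    have hb := hzero (Tate.rep σ⁻¹ (tateBasis hΔ 0))
    rw [← Module.End.mul_apply, ← map_mul, mul_inv_cancel, map_one, Module.End.one_apply] at hb
    have := congrArg (fun v => (tateBasis (p := p) hΔ).repr v 0) hb
    simpa [sub_eq_zero] using this
  rw [Density.charpoly_fin_two_eq (finrank_tate hΔ), htr, hdet]

end Fermat.Agent.TateE
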