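import Fermat.Agent.TateE.Local
import Fermat.Prelude.Def_GaloisRep_StrictOrdinary

/-!
At a prime of multiplicative reduction the Tate module is strictly ordinary.
-/

set_option autoImplicit false

noncomputable section

namespace Fermat.Agent.TateE

open WeierstrassCurve
open scoped WeierstrassCurve.Affine
open Fermat.Agent.ECLocal (InKernel)

local notation "Qb" => AlgebraicClosure ℚ
local notation "Γℚ" => (AlgebraicClosure ℚ ≃ₐ[ℚ] AlgebraicClosure ℚ)

variable {W : WeierstrassCurve ℤ} {p : ℕ} [Fact p.Prime] {A : ValuationSubring Qb}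

omit [Fact p.Prime] in
theorem addOrderOf_tors {n : ℕ} (P : ETors W n) : addOrderOf (P : EPoint W) = addOrderOf P :=
  addOrderOf_injective (Submodule.torsionBy ℤ (EPoint W) n).subtype.toAddMonoidHom
    Subtype.val_injective P

omit [Fact p.Prime] in
theorem zsmul_eq_zero_iff_pow_dvd {n : ℕ} {P : EPoint W} (hP : addOrderOf P = p ^ n) (a : ℤ) :
    a • P = 0 ↔ (p : ℤ) ^ n ∣ a := by
  rw [← addOrderOf_dvd_iff_zsmul_eq_zero, hP, Nat.cast_pow]

/-- One step up inside the kernels of reduction. -/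
theorem exists_inKernel_step (hΔ : W.Δ ≠ 0) (hp2 : p ≠ 2) (hA : A.LiesOverPrime p)
    (hd : (p : ℤ) ∣ W.Δ) (hc : ¬ (p : ℤ) ∣ W.c₄) (n : ℕ) {x : EPoint W} (hxk : InKernel A x)
    (hx : addOrderOf x = p ^ n) :
    ∃ y : EPoint W, InKernel A y ∧ addOrderOf y = p ^ (n + 1) ∧ p • y = x := by
  have hp : p.Prime := Fact.out
  have hss : ECFormal.SemistableAt W p := fun _ => hc
  have hord := ECFormal.ordinaryAtPlace_of_mult W hΔ hp hp2 hA hd hc
  obtain ⟨P, hPk, hP⟩ := ECFormal.exists_inKernel_addOrderOf W hΔ hp hp2 hA hss (n + 1)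
  have hP' : addOrderOf (P : EPoint W) = p ^ (n + 1) := (addOrderOf_tors P).trans hP
  rcases Nat.eq_zero_or_pos n with rfl | hn
  · refine ⟨P, hPk, hP', ?_⟩
    rw [pow_zero, AddMonoid.addOrderOf_eq_one_iff] at hx
    rw [hx]
    have h := addOrderOf_nsmul_eq_zero (P : EPoint W)
    rw [hP'] at h
    simpa using h
  have hxmem : ((p ^ (n + 1) : ℕ) : ℤ) • x = 0 := by
    rw [natCast_zsmul, pow_succ', mul_smul, ← hx, addOrderOf_nsmul_eq_zero, smul_zero]
  obtain ⟨k, hk⟩ := AddSubgroup.mem_zmultiples_iff.mp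
    ((ECFormal.inKernel_iff_mem_zmultiples W hΔ hp hp2 hA hss hord hPk hP
      (⟨x, hxmem⟩ : ECFormal.Tors W (p ^ (n + 1)))).mp hxk)
  have hk' : k • (P : EPoint W) = x := congrArg Subtype.val hk
  have h0 : ((p ^ n : ℕ) : ℤ) • x = 0 := by rw [natCast_zsmul, ← hx, addOrderOf_nsmul_eq_zero]
  rw [← hk', smul_smul, zsmul_eq_zero_iff_pow_dvd hP', Nat.cast_pow, pow_succ] at h0
  obtain ⟨m, rfl⟩ : (p : ℤ) ∣ k :=
    (mul_dvd_mul_iff_left (pow_ne_zero n (Int.natCast_ne_zero.mpr hp.ne_zero))).mp h0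
  rw [mul_smul, natCast_zsmul] at hk'
  refine ⟨m • (P : EPoint W), ?_, ?_, hk'⟩
  · exact (ECFormal.inKernel_iff_mem_zmultiples W hΔ hp hp2 hA hss hord hPk hP (m • P)).mpr
      (AddSubgroup.mem_zmultiples_iff.mpr ⟨m, rfl⟩)
  · refine addOrderOf_eq_prime_pow ?_ ?_
    · rw [← hk'] at hx
      intro h
      have h2 : p ^ (n - 1) • (p • (m • (P : EPoint W))) = 0 := by
        rw [← mul_smul, ← pow_succ, Nat.sub_add_cancel hn, h]
      have := addOrderOf_dvd_of_nsmul_eq_zero h2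
      rw [hx] at this
      exact absurd ((Nat.pow_dvd_pow_iff_le_right hp.one_lt).mp this) (by omega)
    · rw [show ∀ y : EPoint W, p ^ (n + 1) • y = p ^ n • p • y from fun y => by
        rw [pow_succ, mul_smul], hk', ← hx, addOrderOf_nsmul_eq_zero]

/-- A generator of the kernel of reduction in the Tate module. -/
theorem exists_kernel_generator (hΔ : W.Δ ≠ 0) (hp2 : p ≠ 2) (hA : A.LiesOverPrime p)
    (hd : (p : ℤ) ∣ W.Δ) (hc : ¬ (p : ℤ) ∣ W.c₄) :
    ∃ f : Tate p (EPoint W), ∀ n, InKernel A ((f : ℕ → EPoint W) n) ∧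
      addOrderOf ((f : ℕ → EPoint W) n) = p ^ n := by
  choose! next h1 h2 h3 using fun n x (hxk : InKernel A x) (hx : addOrderOf x = p ^ n) =>
    exists_inKernel_step hΔ hp2 hA hd hc n hxk hx
  let f : ℕ → EPoint W := fun n => Nat.rec 0 (fun k x => next k x) n
  have hf : ∀ n, InKernel A (f n) ∧ addOrderOf (f n) = p ^ n := by
    intro n
    induction n with
    | zero => exact ⟨ECLocal.inKernel_zero A, by rw [pow_zero]; exact addOrderOf_zero⟩
    | succ n ih => exact ⟨h1 n _ ih.1 ih.2, h2 n _ ih.1 ih.2⟩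
  exact ⟨⟨f, fun n => by rw [← (hf n).2]; exact addOrderOf_nsmul_eq_zero _,
    fun n => h3 n _ (hf n).1 (hf n).2⟩, hf⟩

/-- Strict ordinarity of the Tate module at a multiplicative prime `p`. -/
theorem tateRep_isStrictOrdinaryAt (hΔ : W.Δ ≠ 0) (hp2 : p ≠ 2) (hd : (p : ℤ) ∣ W.Δ)
    (hc : ¬ (p : ℤ) ∣ W.c₄) : (tateRep W p hΔ).IsStrictOrdinaryAt p := by
  refine ⟨PadicInt.p_nonunit, fun A hA => ?_⟩
  have hp : p.Prime := Fact.out
  have hss : ECFormal.SemistableAt W p := fun _ => hc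
  have hord := ECFormal.ordinaryAtPlace_of_mult W hΔ hp hp2 hA hd hc
  obtain ⟨f, hf⟩ := exists_kernel_generator hΔ hp2 hA hd hc
  have hker : ∀ n (Q : EPoint W), p ^ n • Q = 0 →
      (InKernel A Q ↔ ∃ a : ℤ, a • (f : ℕ → EPoint W) n = Q) := by
    intro n Q hQ
    have := ECFormal.inKernel_iff_mem_zmultiples W hΔ hp hp2 hA hss hord
      (P := (Tate.proj n f : ECFormal.Tors W (p ^ n))) (hf n).1
      ((addOrderOf_tors (Tate.proj n f)).symm.trans (hf n).2)
      ⟨Q, by rw [Submodule.mem_torsionBy_iff, natCast_zsmul]; exact hQ⟩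
    refine this.trans (AddSubgroup.mem_zmultiples_iff.trans ?_)
    exact exists_congr fun a => ⟨fun h => congrArg Subtype.val h, fun h => Subtype.ext h⟩
  -- complement at level one
  obtain ⟨Q, hQord, hQ⟩ := ECFormal.exists_complement W hΔ hp hp2 hA hss hord
    (P := (Tate.proj 1 f : ECFormal.Tors W (p ^ 1))) (hf 1).1
    ((addOrderOf_tors (Tate.proj 1 f)).symm.trans (hf 1).2)
  obtain ⟨g, hg⟩ := exists_tate_apply_eq (card_ETors_pow hΔ) (n := 1) (e := (Q : EPoint W))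
    (by rw [← natCast_zsmul]; exact Q.2)
  have hind : ∀ a b : ℤ, a • (f : ℕ → EPoint W) 1 + b • (g : ℕ → EPoint W) 1 = 0 →
      (p : ℤ) ∣ a ∧ (p : ℤ) ∣ b := by
    have : NeZero (p ^ 1) := ⟨pow_ne_zero _ hp.ne_zero⟩
    have : Finite (ECFormal.Tors W (p ^ 1)) := Nat.finite_of_card_ne_zero (by
      rw [card_ETors_pow hΔ 1]; exact pow_ne_zero _ (NeZero.ne _))
    have hPp : ∀ (R : ECFormal.Tors W (p ^ 1)) (z : ℤ),
        ((z : ZMod (p ^ 1)).val : ℤ) • R = z • R := by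
      intro R z
      rw [ZMod.val_intCast, ← sub_eq_zero, ← sub_smul, Int.emod_def, sub_sub_cancel_left,
        neg_smul, mul_comm, mul_smul, Subtype.ext_iff]
      simp only [NegMemClass.coe_neg, ZeroMemClass.coe_zero, neg_eq_zero]
      rw [Submodule.coe_smul_of_tower, show (((p ^ 1 : ℕ) : ℤ) • R : ECFormal.Tors W (p ^ 1)) = 0
        from Submodule.smul_torsionBy _ R]
      simp
    let φ : ZMod (p ^ 1) × ZMod (p ^ 1) → ECFormal.Tors W (p ^ 1) := fun z =>
      (z.1.val : ℤ) • Tate.proj 1 f + (z.2.val : ℤ) • Q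
    have hsurj : Function.Surjective φ := fun R => by
      obtain ⟨a, b, hab⟩ := hQ R
      exact ⟨(a, b), by simp only [φ, hPp, hab]⟩
    have hbij : Function.Bijective φ := hsurj.bijective_of_nat_card_le (by
      rw [card_ETors_pow hΔ 1, Nat.card_prod, Nat.card_zmod, sq])
    intro a b hab
    have : φ (a, b) = φ (0, 0) := by
      simp only [φ, hPp, ZMod.val_zero, Nat.cast_zero, zero_smul, add_zero]
      refine Subtype.ext ?_
      rw [hg] at hab
      exact hab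
    obtain ⟨ha, hb⟩ := Prod.ext_iff.mp (hbij.1 this)
    rw [ZMod.intCast_zmod_eq_zero_iff_dvd, pow_one] at ha hb
    exact ⟨ha, hb⟩
  have hfg := Tate.indep_of_level_one hind
  obtain ⟨b, hb0, hb1⟩ := exists_basis_of_pair (card_ETors_pow hΔ) hfg
  let L : Submodule ℤ_[p] (Tate p (EPoint W)) := ℤ_[p] ∙ f
  have hmemL : ∀ v : Tate p (EPoint W), v ∈ L ↔ ∀ n, InKernel A ((v : ℕ → EPoint W) n) := by
    intro v
    constructor
    · rintro hv n
      obtain ⟨x, rfl⟩ := Submodule.mem_span_singleton.mp hv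
      obtain ⟨a, ha⟩ := Tate.exists_intCast_eq n x
      exact (hker n _ (Tate.pow_smul_apply _ n)).mpr ⟨a, (Tate.smul_apply x f n ha).symm⟩
    · intro hv
      refine Submodule.mem_span_singleton.mpr ⟨b.repr v 0, ?_⟩
      have hv' : v = b.repr v 0 • f + b.repr v 1 • g := by
        conv_lhs => rw [← b.sum_repr v, Fin.sum_univ_two, hb0, hb1]
      suffices h : b.repr v 1 = 0 by
        refine Eq.symm (hv'.trans ?_)
        rw [h]
        exact add_eq_left.mpr (zero_smul ℤ_[p] g)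
      refine PadicInt.ext_of_toZModPow.mp fun n => ?_
      obtain ⟨x, hx⟩ := Tate.exists_intCast_eq n (b.repr v 0)
      obtain ⟨y, hy⟩ := Tate.exists_intCast_eq n (b.repr v 1)
      obtain ⟨a, ha⟩ := (hker n _ (Tate.pow_smul_apply v n)).mp (hv n)
      rw [hv', AddSubgroup.coe_add, Pi.add_apply, Tate.smul_apply _ f n hx,
        Tate.smul_apply _ g n hy, ← sub_eq_zero, ← sub_sub, ← sub_smul, sub_eq_add_neg,
        ← neg_smul] at ha
      have := (hfg n _ _ ha).2
      rw [dvd_neg, ← Nat.cast_pow, ← ZMod.intCast_zmod_eq_zero_iff_dvd, hy] at this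
      rw [this, map_zero]
  have hD : ∀ σ ∈ A.decompositionSubgroup ℚ, ∀ v ∈ L, Tate.rep σ v ∈ L := by
    intro σ hσ v hv
    rw [hmemL] at hv ⊢
    exact fun n => ECFormal.inKernel_smul W hσ (P := (Tate.proj n v : ECFormal.Tors W (p ^ n))) (hv n)
  have hI : ∀ σ ∈ A.inertiaSubgroupIn ℚ, ∀ v : Tate p (EPoint W), Tate.rep σ v - v ∈ L := by
    intro σ hσ v
    rw [hmemL]
    exact fun n => ECFormal.inKernel_smul_sub_of_ordinary W hΔ hp hp2 hA hss hord hσ
      (Tate.proj n v : ECFormal.Tors W (p ^ n))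
  have hxz : ∀ σ ∈ A.decompositionSubgroup ℚ, ∃ x z : ℤ_[p],
      (∀ w ∈ L, Tate.rep σ w = x • w) ∧ (∀ v : Tate p (EPoint W), Tate.rep σ v - z • v ∈ L) ∧
      ∀ (n a : ℕ), (∀ μ : AlgebraicClosure ℚ, μ ^ p ^ n = 1 → σ μ = μ ^ a) →
        x - (a : ℤ_[p]) * z ∈ Ideal.span {((p ^ n : ℕ) : ℤ_[p])} := by
    intro σ hσ
    obtain ⟨z, hz, -, hzq⟩ := ECFormal.exists_sign_of_mult W hΔ hp hp2 hA hd hc hσ
    obtain ⟨x, hx⟩ := Submodule.mem_span_singleton.mp (hD σ hσ f (Submodule.mem_span_singleton_self f))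
    refine ⟨x, (z : ℤ_[p]), ?_, ?_, ?_⟩
    · intro w hw
      obtain ⟨c, rfl⟩ := Submodule.mem_span_singleton.mp hw
      rw [map_smul, ← hx, smul_comm]
    · intro v
      rw [hmemL]
      intro n
      rw [AddSubgroup.coe_sub, Pi.sub_apply, Tate.rep_apply,
        Tate.smul_apply (z : ℤ_[p]) v n (a := z) (by simp)]
      exact hzq n (Tate.proj n v : ECFormal.Tors W (p ^ n))
    · intro n a ha
      have h1 := congrArg Subtype.val (ECFormal.smul_eq_cyclotomic_mul_sign_of_mult W hΔ hp hp2 hA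
        hd hc hσ hz hzq ha (Tate.proj n f : ECFormal.Tors W (p ^ n)) (hf n).1)
      obtain ⟨x', hx'⟩ := Tate.exists_intCast_eq n x
      have h2 : x' • (f : ℕ → EPoint W) n = ((a : ℤ) * z) • (f : ℕ → EPoint W) n := by
        rw [← Tate.smul_apply x f n hx', hx]
        exact h1
      rw [← sub_eq_zero, ← sub_smul, zsmul_eq_zero_iff_pow_dvd (hf n).2, ← Nat.cast_pow,
        ← ZMod.intCast_zmod_eq_zero_iff_dvd] at h2
      push_cast at h2
      rw [Nat.cast_pow, ← PadicInt.ker_toZModPow, RingHom.mem_ker, map_sub, map_mul, map_natCast,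
        map_intCast, ← hx']
      exact h2
  exact ⟨L, ⟨b, show L = ℤ_[p] ∙ b 0 by rw [hb0]⟩, hD, hI, hxz⟩

end Fermat.Agent.TateE
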