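import Mathlib.NumberTheory.Padics.RingHoms
import Mathlib.LinearAlgebra.Dimension.Constructions
import Mathlib.LinearAlgebra.Dimension.StrongRankCondition
import Mathlib.Algebra.Module.Torsion.Basic
import Mathlib.Data.ZMod.QuotientRing
import Fermat.Agent.ECTorsion.AbelianTorsion

/-!
The Tate module of an abelian group `A` with `#A[p ^ n] = p ^ (2 n)` for all `n`.
-/

set_option autoImplicit false

noncomputable section

namespace Fermat.Agent.TateE

variable (p : ℕ) (A : Type) [AddCommGroup A]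

/-- Compatible systems of `p`-power torsion points. -/
def tateSeqs : AddSubgroup (ℕ → A) where
  carrier := {f | (∀ n, p ^ n • f n = 0) ∧ ∀ n, p • f (n + 1) = f n}
  zero_mem' := ⟨fun _ => smul_zero _, fun _ => smul_zero _⟩
  add_mem' {f g} hf hg := ⟨fun n => by simp [smul_add, hf.1 n, hg.1 n],
    fun n => by simp [smul_add, hf.2 n, hg.2 n]⟩
  neg_mem' {f} hf := ⟨fun n => by simp [hf.1 n], fun n => by simp [hf.2 n]⟩

/-- The `p`-adic Tate module of `A`. -/
abbrev Tate : Type := tateSeqs p A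

variable {p A}

theorem Tate.pow_smul_apply (f : Tate p A) (n : ℕ) : p ^ n • (f : ℕ → A) n = 0 := f.2.1 n

theorem Tate.smul_succ (f : Tate p A) (n : ℕ) : p • (f : ℕ → A) (n + 1) = (f : ℕ → A) n := f.2.2 n

theorem Tate.zsmul_eq_of_modEq (f : Tate p A) (n : ℕ) {a b : ℤ}
    (h : (a : ZMod (p ^ n)) = (b : ZMod (p ^ n))) :
    a • (f : ℕ → A) n = b • (f : ℕ → A) n := by
  rw [ZMod.intCast_eq_intCast_iff_dvd_sub] at h
  obtain ⟨c, hc⟩ := h
  rw [show b = a + c * ((p ^ n : ℕ) : ℤ) by rw [mul_comm, ← hc]; ring, add_smul, mul_smul,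
    natCast_zsmul, Tate.pow_smul_apply, smul_zero, add_zero]

theorem Tate.pow_smul_add (f : Tate p A) (n : ℕ) :
    ∀ k, p ^ k • (f : ℕ → A) (n + k) = (f : ℕ → A) n
  | 0 => by simp
  | k + 1 => by rw [pow_succ, mul_smul, ← Nat.add_assoc, Tate.smul_succ, Tate.pow_smul_add f n k]

variable [Fact p.Prime]

instance instSMulTate : SMul ℤ_[p] (Tate p A) :=
  ⟨fun x f => ⟨fun n => (x.appr n : ℤ) • (f : ℕ → A) n,
    fun n => by rw [smul_comm, Tate.pow_smul_apply, smul_zero],
    fun n => by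
      rw [smul_comm, Tate.smul_succ]
      apply Tate.zsmul_eq_of_modEq
      have h1 : ((x.appr (n + 1) : ℕ) : ZMod (p ^ (n + 1))) = PadicInt.toZModPow (n + 1) x := rfl
      have h2 : ((x.appr n : ℕ) : ZMod (p ^ n)) = PadicInt.toZModPow n x := rfl
      rw [Int.cast_natCast, Int.cast_natCast, h2,
        ← PadicInt.cast_toZModPow n (n + 1) n.le_succ x, ← h1,
        ZMod.cast_natCast (pow_dvd_pow p n.le_succ)]⟩⟩

theorem Tate.smul_apply (x : ℤ_[p]) (f : Tate p A) (n : ℕ) {a : ℤ}
    (h : (a : ZMod (p ^ n)) = PadicInt.toZModPow n x) :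
    ((x • f : Tate p A) : ℕ → A) n = a • (f : ℕ → A) n :=
  Tate.zsmul_eq_of_modEq f n (by rw [h, Int.cast_natCast]; rfl)

theorem Tate.exists_intCast_eq (n : ℕ) (x : ℤ_[p]) :
    ∃ a : ℤ, (a : ZMod (p ^ n)) = PadicInt.toZModPow n x :=
  ⟨(x.appr n : ℤ), by rw [Int.cast_natCast]; rfl⟩

instance instModuleTate : Module ℤ_[p] (Tate p A) where
  one_smul f := Subtype.ext <| funext fun n => by
    rw [Tate.smul_apply 1 f n (a := 1) (by simp), one_smul]
  mul_smul x y f := Subtype.ext <| funext fun n => by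
    obtain ⟨a, ha⟩ := Tate.exists_intCast_eq n x
    obtain ⟨b, hb⟩ := Tate.exists_intCast_eq n y
    rw [Tate.smul_apply (x * y) f n (a := a * b) (by simp [ha, hb]), Tate.smul_apply x _ n ha,
      Tate.smul_apply y f n hb, mul_smul]
  smul_zero x := Subtype.ext <| funext fun n => by
    obtain ⟨a, ha⟩ := Tate.exists_intCast_eq n x
    rw [Tate.smul_apply x _ n ha]
    simp
  smul_add x f g := Subtype.ext <| funext fun n => by
    obtain ⟨a, ha⟩ := Tate.exists_intCast_eq n x
    simp only [AddSubgroup.coe_add, Pi.add_apply, Tate.smul_apply x _ n ha, smul_add]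
  add_smul x y f := Subtype.ext <| funext fun n => by
    obtain ⟨a, ha⟩ := Tate.exists_intCast_eq n x
    obtain ⟨b, hb⟩ := Tate.exists_intCast_eq n y
    simp only [AddSubgroup.coe_add, Pi.add_apply, Tate.smul_apply x _ n ha,
      Tate.smul_apply y _ n hb,
      Tate.smul_apply (x + y) f n (a := a + b) (by simp [ha, hb]), add_smul]
  zero_smul f := Subtype.ext <| funext fun n => by
    rw [Tate.smul_apply 0 f n (a := 0) (by simp), zero_smul]
    rfl

variable (hA : ∀ n : ℕ, Nat.card (Submodule.torsionBy ℤ A (p ^ n : ℕ)) = (p ^ n) ^ 2)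

include hA in
theorem exists_lift {n : ℕ} {e : A} (he : p ^ n • e = 0) :
    ∃ P : A, p ^ (n + 1) • P = 0 ∧ p • P = e := by
  have hp := (Fact.out : p.Prime)
  obtain ⟨P, h1, h2⟩ := ECTorsion.exists_zsmul_eq_of_card (m := p) (d := p ^ n) hp.ne_zero
    (pow_ne_zero _ hp.ne_zero) (fun k hk => by
      simp only [Set.mem_insert_iff, Set.mem_singleton_iff] at hk
      rcases hk with rfl | rfl | rfl
      · simpa using hA 1
      · exact hA n
      · rw [← pow_succ']; exact hA (n + 1))
    (e := e) (by rw [natCast_zsmul]; exact he)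
  rw [← pow_succ', natCast_zsmul] at h1
  rw [natCast_zsmul] at h2
  exact ⟨P, h1, h2⟩

include hA in
/-- Every point killed by `p ^ n` is the `n`-th component of an element of the Tate module. -/
theorem exists_tate_apply_eq {n : ℕ} {e : A} (he : p ^ n • e = 0) :
    ∃ f : Tate p A, (f : ℕ → A) n = e := by
  classical
  choose! next hnext1 hnext2 using fun (k : ℕ) (x : A) (hx : p ^ k • x = 0) => exists_lift hA hx
  let up : ℕ → A := fun k => Nat.rec e (fun j x => next (n + j) x) k
  have hup : ∀ k, p ^ (n + k) • up k = 0 := by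
    intro k
    induction k with
    | zero => exact he
    | succ k ih => exact hnext1 (n + k) _ ih
  have hup' : ∀ k, p • up (k + 1) = up k := fun k => hnext2 (n + k) _ (hup k)
  let f : ℕ → A := fun m => if m ≤ n then p ^ (n - m) • e else up (m - n)
  refine ⟨⟨f, fun m => ?_, fun m => ?_⟩, by simp [f]⟩
  · by_cases hm : m ≤ n
    · simp only [f, if_pos hm, smul_smul, ← pow_add, show m + (n - m) = n by omega, he]
    · simp only [f, if_neg hm]
      have := hup (m - n)
      rwa [show n + (m - n) = m by omega] at this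
  · rcases lt_trichotomy m n with hm | rfl | hm
    · have h1 : m + 1 ≤ n := hm
      simp only [f, h1, hm.le, if_true]
      rw [smul_smul, ← pow_succ']
      congr 2
      omega
    · simp only [f, le_refl, if_true, Nat.sub_self, pow_zero, one_smul, if_neg m.lt_succ_self.not_ge,
        Nat.add_sub_cancel_left]
      exact hup' 0
    · simp only [f, if_neg (show ¬ m + 1 ≤ n by omega), if_neg hm.not_ge,
        show m + 1 - n = m - n + 1 by omega]
      exact hup' (m - n)

omit [Fact p.Prime] in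
/-- Independence at the first level gives independence at all levels. -/
theorem Tate.indep_of_level_one {f g : Tate p A}
    (hind : ∀ a b : ℤ, a • (f : ℕ → A) 1 + b • (g : ℕ → A) 1 = 0 → (p : ℤ) ∣ a ∧ (p : ℤ) ∣ b) :
    ∀ (n : ℕ) (a b : ℤ),
      a • (f : ℕ → A) n + b • (g : ℕ → A) n = 0 → (p : ℤ) ^ n ∣ a ∧ (p : ℤ) ^ n ∣ b := by
  intro n
  induction n with
  | zero => exact fun a b _ => ⟨by simp, by simp⟩
  | succ n ih =>
    intro a b hab
    have h1 := congrArg (fun x => p ^ n • x) hab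
    simp only [smul_add, smul_zero, smul_comm (p ^ n) a, smul_comm (p ^ n) b] at h1
    rw [Nat.add_comm n 1, Tate.pow_smul_add, Tate.pow_smul_add] at h1
    obtain ⟨⟨a', rfl⟩, ⟨b', rfl⟩⟩ := hind a b h1
    rw [mul_comm (p : ℤ), mul_comm (p : ℤ), mul_smul, mul_smul, natCast_zsmul, natCast_zsmul,
      Tate.smul_succ, Tate.smul_succ] at hab
    obtain ⟨ha, hb⟩ := ih a' b' hab
    exact ⟨by rw [pow_succ']; exact mul_dvd_mul_left _ ha,
      by rw [pow_succ']; exact mul_dvd_mul_left _ hb⟩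

include hA in
theorem exists_tate_pair : ∃ f g : Tate p A, ∀ (n : ℕ) (a b : ℤ),
    a • (f : ℕ → A) n + b • (g : ℕ → A) n = 0 → (p : ℤ) ^ n ∣ a ∧ (p : ℤ) ^ n ∣ b := by
  obtain ⟨e, e', he, he', hind⟩ :=
    ECTorsion.exists_independent_pair_prime (Fact.out : p.Prime) (A := A) (by simpa using hA 1)
  rw [natCast_zsmul] at he he'
  obtain ⟨f, hf⟩ := exists_tate_apply_eq hA (n := 1) (e := e) (by simpa using he)
  obtain ⟨g, hg⟩ := exists_tate_apply_eq hA (n := 1) (e := e') (by simpa using he')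
  exact ⟨f, g, Tate.indep_of_level_one (by rw [hf, hg]; exact hind)⟩

include hA in
theorem exists_eq_combination {f g : Tate p A}
    (hfg : ∀ (n : ℕ) (a b : ℤ),
      a • (f : ℕ → A) n + b • (g : ℕ → A) n = 0 → (p : ℤ) ^ n ∣ a ∧ (p : ℤ) ^ n ∣ b)
    (n : ℕ) {x : A} (hx : p ^ n • x = 0) :
    ∃ a b : ℤ, x = a • (f : ℕ → A) n + b • (g : ℕ → A) n := by
  have : NeZero (p ^ n) := ⟨pow_ne_zero _ (Fact.out : p.Prime).ne_zero⟩
  set T := Submodule.torsionBy ℤ A (p ^ n : ℕ)
  have hmem : ∀ {y : A}, p ^ n • y = 0 → y ∈ T := fun {y} hy => by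
    rw [Submodule.mem_torsionBy_iff, natCast_zsmul]
    exact hy
  let φ : ZMod (p ^ n) × ZMod (p ^ n) → T := fun z =>
    ⟨(z.1.val : ℤ) • (f : ℕ → A) n + (z.2.val : ℤ) • (g : ℕ → A) n, hmem (by
      simp [smul_add, smul_comm (p ^ n) _ ((f : ℕ → A) n), smul_comm (p ^ n) _ ((g : ℕ → A) n),
        Tate.pow_smul_apply])⟩
  have hinj : Function.Injective φ := fun z w h => by
    have h' := congrArg Subtype.val h
    simp only [φ] at h'
    rw [← sub_eq_zero, add_sub_add_comm, ← sub_smul, ← sub_smul] at h'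
    obtain ⟨ha, hb⟩ := hfg n _ _ h'
    rw [← Nat.cast_pow, ← ZMod.intCast_eq_intCast_iff_dvd_sub] at ha hb
    simp only [Int.cast_natCast, ZMod.natCast_zmod_val] at ha hb
    exact Prod.ext ha.symm hb.symm
  have : Finite T := Nat.finite_of_card_ne_zero (by rw [hA n]; exact pow_ne_zero _ (NeZero.ne _))
  have hsurj : Function.Surjective φ :=
    (hinj.bijective_of_nat_card_le (by rw [hA n, Nat.card_prod, Nat.card_zmod, sq])).2
  obtain ⟨z, hz⟩ := hsurj ⟨x, hmem hx⟩
  exact ⟨_, _, (congrArg Subtype.val hz).symm⟩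

include hA in
theorem exists_basis_of_pair {f g : Tate p A}
    (hfg : ∀ (n : ℕ) (a b : ℤ),
      a • (f : ℕ → A) n + b • (g : ℕ → A) n = 0 → (p : ℤ) ^ n ∣ a ∧ (p : ℤ) ^ n ∣ b) :
    ∃ b : Module.Basis (Fin 2) ℤ_[p] (Tate p A), b 0 = f ∧ b 1 = g := by
  refine ⟨Module.Basis.mk (v := ![f, g]) ?_ ?_, Module.Basis.mk_apply _ _ 0,
    Module.Basis.mk_apply _ _ 1⟩
  · rw [LinearIndependent.pair_iff]
    intro x y hxy
    have key : ∀ n, PadicInt.toZModPow n x = 0 ∧ PadicInt.toZModPow n y = 0 := by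
      intro n
      obtain ⟨a, ha⟩ := Tate.exists_intCast_eq n x
      obtain ⟨b, hb⟩ := Tate.exists_intCast_eq n y
      have h := congrArg (fun z : Tate p A => (z : ℕ → A) n) hxy
      simp only [AddSubgroup.coe_add, Pi.add_apply, Tate.smul_apply x f n ha,
        Tate.smul_apply y g n hb, ZeroMemClass.coe_zero, Pi.zero_apply] at h
      obtain ⟨h1, h2⟩ := hfg n a b h
      rw [← ha, ← hb, ZMod.intCast_zmod_eq_zero_iff_dvd, ZMod.intCast_zmod_eq_zero_iff_dvd]
      exact ⟨by exact_mod_cast h1, by exact_mod_cast h2⟩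
    exact ⟨PadicInt.ext_of_toZModPow.mp fun n => by rw [(key n).1, map_zero],
      PadicInt.ext_of_toZModPow.mp fun n => by rw [(key n).2, map_zero]⟩
  · intro h _
    choose a b hab using fun n => exists_eq_combination hA hfg n (h.pow_smul_apply n)
    have hstep : ∀ n, (p : ℤ) ^ n ∣ a (n + 1) - a n ∧ (p : ℤ) ^ n ∣ b (n + 1) - b n := by
      intro n
      have h0 := h.smul_succ n
      rw [hab (n + 1), smul_add, smul_comm p (a (n + 1)), smul_comm p (b (n + 1)),
        Tate.smul_succ, Tate.smul_succ, hab n, ← sub_eq_zero, add_sub_add_comm, ← sub_smul,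
        ← sub_smul] at h0
      exact hfg n _ _ h0
    have hx := fun n => PadicInt.toZModPow_ofIntSeq_of_pow_dvd_sub a p (fun i => (hstep i).1) n
    have hy := fun n => PadicInt.toZModPow_ofIntSeq_of_pow_dvd_sub b p (fun i => (hstep i).2) n
    set x := PadicInt.ofIntSeq _ (PadicInt.isCauSeq_padicNorm_of_pow_dvd_sub a p fun i => (hstep i).1)
    set y := PadicInt.ofIntSeq _ (PadicInt.isCauSeq_padicNorm_of_pow_dvd_sub b p fun i => (hstep i).2)
    have : h = x • f + y • g := Subtype.ext <| funext fun n => by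
      rw [AddSubgroup.coe_add, Pi.add_apply, Tate.smul_apply x f n (hx n).symm,
        Tate.smul_apply y g n (hy n).symm]
      exact hab n
    rw [this]
    exact add_mem (Submodule.smul_mem _ _ (Submodule.subset_span ⟨0, rfl⟩))
      (Submodule.smul_mem _ _ (Submodule.subset_span ⟨1, rfl⟩))

include hA in
theorem nonempty_basis : Nonempty (Module.Basis (Fin 2) ℤ_[p] (Tate p A)) := by
  obtain ⟨f, g, hfg⟩ := exists_tate_pair hA
  exact ⟨(exists_basis_of_pair hA hfg).choose⟩

/-- Projection to the `n`-th level. -/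
def Tate.proj (n : ℕ) : Tate p A →+ Submodule.torsionBy ℤ A (p ^ n : ℕ) where
  toFun f := ⟨(f : ℕ → A) n, by
    rw [Submodule.mem_torsionBy_iff, natCast_zsmul]; exact f.pow_smul_apply n⟩
  map_zero' := rfl
  map_add' _ _ := rfl

omit [Fact p.Prime] in
@[simp] theorem Tate.coe_proj (n : ℕ) (f : Tate p A) :
    ((Tate.proj n f : Submodule.torsionBy ℤ A (p ^ n : ℕ)) : A) = (f : ℕ → A) n := rfl

include hA in
theorem Tate.proj_surjective (n : ℕ) : Function.Surjective (Tate.proj (p := p) (A := A) n) := by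
  rintro ⟨e, he⟩
  rw [Submodule.mem_torsionBy_iff, natCast_zsmul] at he
  obtain ⟨f, hf⟩ := exists_tate_apply_eq hA he
  exact ⟨f, Subtype.ext hf⟩

theorem Tate.apply_eq_zero_of_mem (n : ℕ) {f : Tate p A}
    (hf : f ∈ Ideal.span {(p : ℤ_[p]) ^ n} • (⊤ : Submodule ℤ_[p] (Tate p A))) :
    (f : ℕ → A) n = 0 := by
  rw [Submodule.ideal_span_singleton_smul] at hf
  obtain ⟨g, -, rfl⟩ := hf
  change (((p : ℤ_[p]) ^ n • g : Tate p A) : ℕ → A) n = 0
  rw [Tate.smul_apply _ g n (a := ((p ^ n : ℕ) : ℤ)) (by simp), natCast_zsmul,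
    Tate.pow_smul_apply]

/-- The kernel of the `n`-th projection is `p ^ n` times the Tate module. -/
theorem Tate.mem_of_apply_eq_zero (n : ℕ) {f : Tate p A} (hf : (f : ℕ → A) n = 0) :
    f ∈ Ideal.span {(p : ℤ_[p]) ^ n} • (⊤ : Submodule ℤ_[p] (Tate p A)) := by
  let g : Tate p A := ⟨fun k => (f : ℕ → A) (n + k),
    fun k => by rw [f.pow_smul_add n k, hf], fun k => f.smul_succ (n + k)⟩
  rw [Submodule.ideal_span_singleton_smul]
  refine ⟨g, Submodule.mem_top, Subtype.ext <| funext fun k => ?_⟩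
  change (((p : ℤ_[p]) ^ n • g : Tate p A) : ℕ → A) k = _
  rw [Tate.smul_apply _ g k (a := ((p ^ n : ℕ) : ℤ)) (by simp), natCast_zsmul]
  change p ^ n • (f : ℕ → A) (n + k) = _
  rw [Nat.add_comm]
  exact f.pow_smul_add k n

section Action

variable {G : Type} [Monoid G] [DistribMulAction G A]

/-- The representation on the Tate module. -/
def Tate.rep : G →* Module.End ℤ_[p] (Tate p A) where
  toFun σ :=
    { toFun := fun f => ⟨fun n => σ • (f : ℕ → A) n,
        fun n => by rw [← smul_comm σ, f.pow_smul_apply, smul_zero],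
        fun n => by rw [← smul_comm σ, f.smul_succ]⟩
      map_add' := fun f g => Subtype.ext <| funext fun n => smul_add σ _ _
      map_smul' := fun x f => Subtype.ext <| funext fun n => by
        obtain ⟨a, ha⟩ := Tate.exists_intCast_eq n x
        rw [RingHom.id_apply, Tate.smul_apply x _ n ha]
        change σ • ((x • f : Tate p A) : ℕ → A) n = a • (σ • (f : ℕ → A) n)
        rw [Tate.smul_apply x f n ha]
        exact map_zsmul (DistribSMul.toAddMonoidHom A σ) a _ }
  map_one' := LinearMap.ext fun f => Subtype.ext <| funext fun n => one_smul G _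
  map_mul' σ τ := LinearMap.ext fun f => Subtype.ext <| funext fun n => mul_smul σ τ _

@[simp] theorem Tate.rep_apply (σ : G) (f : Tate p A) (n : ℕ) :
    ((Tate.rep σ f : Tate p A) : ℕ → A) n = σ • (f : ℕ → A) n := rfl

end Action

end Fermat.Agent.TateE
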